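import Fermat.Agent.S22.HeckeRel
import Fermat.Prelude.Sol.S_ModularForm_heckeU_slash_eq_self_of_mem_Gamma0

/-!
# S22: Hecke operators on period vectors (helper22)
-/

set_option autoImplicit false

noncomputable section

open UpperHalfPlane Function
open scoped Manifold MatrixGroups ModularForm Real
open P2MW.S_ModularForm_heckeU_slash_eq_self_of_mem_Gamma0.ModularForm.HeckeSlashInvariance

namespace H22

theorem polyFun_sum {d : ℕ} {X : Type} (s : Finset X) (w : X → Fin d → ℂ) :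
    polyFun (∑ x ∈ s, w x) = ∑ x ∈ s, polyFun (w x) := by
  classical
  induction s using Finset.induction_on with
  | empty => simp [polyFun_zero]
  | insert a s ha ih => rw [Finset.sum_insert ha, Finset.sum_insert ha, polyFun_add, ih]

theorem slash_sub_GL (k : ℤ) (A : GL (Fin 2) ℝ) (f g : ℍ → ℂ) :
    (f - g) ∣[k] A = f ∣[k] A - g ∣[k] A := by
  rw [sub_eq_add_neg, SlashAction.add_slash, SlashAction.neg_slash, ← sub_eq_add_neg]

/-- General mechanism: the period polynomial of a Hecke-type average. -/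
theorem period_hecke_general {X : Type} [Fintype X] (n : ℕ)
    (F F' : ℍ → ℂ) (c : ℂ) (α : X → GL (Fin 2) ℝ)
    (hF' : F' = c • ∑ x, F ∣[(-(n : ℤ))] α x)
    (γ : SL(2, ℤ)) (perm : Equiv.Perm X) (γ' : X → SL(2, ℤ))
    (hmul : ∀ x, α x * (γ : GL (Fin 2) ℝ) = (γ' x : GL (Fin 2) ℝ) * α (perm x))
    (v : X → Fin (n + 1) → ℂ) (hv : ∀ x, F ∣[(-(n : ℤ))] (γ' x) - F = polyFun (v x))
    (μ : X → Matrix (Fin (n + 1)) (Fin (n + 1)) ℤ)
    (hμ : ∀ x (w : Fin (n + 1) → ℂ),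
      c • ((polyFun w) ∣[(-(n : ℤ))] α x) = polyFun (intAct (μ x) w)) :
    F' ∣[(-(n : ℤ))] γ - F' = polyFun (∑ x, intAct (μ (perm x)) (v x)) := by
  have h1 : F' ∣[(-(n : ℤ))] γ = c • ∑ x, (F ∣[(-(n : ℤ))] (γ' x)) ∣[(-(n : ℤ))] α (perm x) := by
    rw [hF', ModularForm.SL_smul_slash, SlashAction.sum_slash]
    congr 1
    refine Finset.sum_congr rfl fun x _ => ?_
    rw [ModularForm.SL_slash, ← SlashAction.slash_mul, hmul x, SlashAction.slash_mul,
      ← ModularForm.SL_slash]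
  have h2 : F' = c • ∑ x, F ∣[(-(n : ℤ))] α (perm x) := by
    rw [hF']
    congr 1
    exact (Equiv.sum_comp perm (fun x => F ∣[(-(n : ℤ))] α x)).symm
  have h3 : F' ∣[(-(n : ℤ))] γ - F' =
      ∑ x, c • ((polyFun (v x)) ∣[(-(n : ℤ))] α (perm x)) := by
    rw [h1]
    conv_lhs => rw [h2]
    rw [← smul_sub, ← Finset.sum_sub_distrib, Finset.smul_sum]
    refine Finset.sum_congr rfl fun x _ => ?_
    congr 1
    rw [← hv x, slash_sub_GL]
  rw [h3, polyFun_sum]
  exact Finset.sum_congr rfl fun x _ => hμ (perm x) (v x)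

variable {N : ℕ} [NeZero N] (n : ℕ)

/-- The integer matrix attached to a Hecke representative indexed by `OnePoint (ZMod p)`. -/
def heckeRepMat (p : ℕ) (x : OnePoint (ZMod p)) : Matrix (Fin (n + 1)) (Fin (n + 1)) ℤ :=
  x.elim (slashMat n p 0 0 1) (fun j => slashMat n 1 (j.val : ℕ) 0 p)

theorem polyFun_heckeRepMat {p : ℕ} (hp : p ≠ 0) (x : OnePoint (ZMod p))
    (w : Fin (n + 1) → ℂ) :
    ((p : ℂ) ^ (n + 1)) • ((polyFun w) ∣[(-(n : ℤ))] heckeRep p x) =
      polyFun (intAct (heckeRepMat n p x) w) := by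
  induction x using OnePoint.rec with
  | infty =>
    rw [heckeRep_infty]
    exact polyFun_slash_heckeDiagMatrix n hp w
  | coe j =>
    rw [heckeRep_coe]
    exact polyFun_slash_heckeMatrix n hp j.val w

/-- Hecke relation for `T_p` on period vectors. -/
theorem period_heckeT {p : ℕ} (hp : p.Prime) (hpN : ¬ p ∣ N) (γ : CongruenceSubgroup.Gamma0 N) :
    ∃ (X : Type) (_ : Fintype X) (γ' : X → CongruenceSubgroup.Gamma0 N)
      (μ : X → Matrix (Fin (n + 1)) (Fin (n + 1)) ℤ),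
      ∀ f : CuspForm (CongruenceSubgroup.Gamma0 N) ((n : ℤ) + 2),
        period n (CuspForm.heckeTLin ((n : ℤ) + 2) hp hpN f) γ =
          ∑ x, intAct (μ x) (period n f (γ' x)) := by
  have : Fact p.Prime := ⟨hp⟩
  have : NeZero p := ⟨hp.ne_zero⟩
  have hγN : (N : ℤ) ∣ (γ : SL(2, ℤ)) 1 0 :=
    (ZMod.intCast_zmod_eq_zero_iff_dvd _ _).mp (CongruenceSubgroup.Gamma0_mem.mp γ.2)
  have hex := fun x => heckeRep_mul hpN (γ : SL(2, ℤ)) hγN x
  choose g' hg'N hg'mul using hex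
  have hg'mem : ∀ x, g' x ∈ CongruenceSubgroup.Gamma0 N := fun x =>
    CongruenceSubgroup.Gamma0_mem.mpr ((ZMod.intCast_zmod_eq_zero_iff_dvd _ _).mpr (hg'N x))
  refine ⟨OnePoint (ZMod p), inferInstance, fun x => ⟨g' x, hg'mem x⟩,
    fun x => heckeRepMat n p (MulAction.toPerm (redMatrix p (γ : SL(2, ℤ))) x), fun f => ?_⟩
  apply polyFun_injective
  rw [polyFun_period]
  refine period_hecke_general n (eich n f) (eich n (CuspForm.heckeTLin ((n : ℤ) + 2) hp hpN f))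
    ((p : ℂ) ^ (n + 1)) (heckeRep p) ?_ (γ : SL(2, ℤ))
    (MulAction.toPerm (redMatrix p (γ : SL(2, ℤ)))) g' (fun x => hg'mul x)
    (fun x => period n f ⟨g' x, hg'mem x⟩) (fun x => (polyFun_period n f ⟨g' x, hg'mem x⟩).symm)
    (heckeRepMat n p) (fun x w => polyFun_heckeRepMat n hp.ne_zero x w)
  unfold eich
  rw [eichler_heckeT n hp hpN f, heckeT_eq_sum_onePoint]

/-- Hecke relation for `U_q` on period vectors. -/
theorem period_heckeU {q : ℕ} (hqN : q ∣ N) (γ : CongruenceSubgroup.Gamma0 N) :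
    ∃ (X : Type) (_ : Fintype X) (γ' : X → CongruenceSubgroup.Gamma0 N)
      (μ : X → Matrix (Fin (n + 1)) (Fin (n + 1)) ℤ),
      ∀ f : CuspForm (CongruenceSubgroup.Gamma0 N) ((n : ℤ) + 2),
        period n (CuspForm.heckeULin ((n : ℤ) + 2) hqN f) γ =
          ∑ x, intAct (μ x) (period n f (γ' x)) := by
  have hq0 : q ≠ 0 := fun h => NeZero.ne N (Nat.eq_zero_of_zero_dvd (h ▸ hqN))
  have : NeZero q := ⟨hq0⟩
  have hγN : (N : ℤ) ∣ (γ : SL(2, ℤ)) 1 0 :=
    (ZMod.intCast_zmod_eq_zero_iff_dvd _ _).mp (CongruenceSubgroup.Gamma0_mem.mp γ.2)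
  have hγq : (q : ℤ) ∣ (γ : SL(2, ℤ)) 1 0 := (Int.natCast_dvd_natCast.mpr hqN).trans hγN
  have hex := fun x => heckeMatrix_mul_of_dvd (γ : SL(2, ℤ)) hγq x
  choose g' hg'N hg'mul using hex
  have hg'mem : ∀ x, g' x ∈ CongruenceSubgroup.Gamma0 N := fun x => by
    rw [CongruenceSubgroup.Gamma0_mem, hg'N x]
    push_cast
    rw [CongruenceSubgroup.Gamma0_mem.mp γ.2, mul_zero]
  set perm : Equiv.Perm (ZMod q) :=
    affinePerm (γ : SL(2, ℤ)) ((ZMod.intCast_zmod_eq_zero_iff_dvd _ _).mpr hγq) with hperm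
  refine ⟨ZMod q, inferInstance, fun x => ⟨g' x, hg'mem x⟩,
    fun x => slashMat n 1 ((perm x).val : ℕ) 0 q, fun f => ?_⟩
  apply polyFun_injective
  rw [polyFun_period]
  refine period_hecke_general n (eich n f) (eich n (CuspForm.heckeULin ((n : ℤ) + 2) hqN f))
    ((q : ℂ) ^ (n + 1)) (fun x : ZMod q => ModularForm.heckeMatrix q x.val) ?_ (γ : SL(2, ℤ))
    perm g' (fun x => hg'mul x)
    (fun x => period n f ⟨g' x, hg'mem x⟩) (fun x => (polyFun_period n f ⟨g' x, hg'mem x⟩).symm)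
    (fun x => slashMat n 1 (x.val : ℕ) 0 q) (fun x w => polyFun_slash_heckeMatrix n hq0 x.val w)
  unfold eich
  rw [eichler_heckeU n hqN f, heckeU_eq_sum_zmod]

end H22
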