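import Mathlib
import Fermat.Prelude.Def_CuspForm_HeckeAlgebra

/-!
# S22 (A2): trivial weights (helper16)

For `k ≤ 0` or `k` odd the space `CuspForm (Γ₀(N)) k` is zero, hence its Hecke algebra is a
finite `ℤ`-module.
-/

set_option autoImplicit false

open UpperHalfPlane ModularForm
open scoped MatrixGroups ModularForm

namespace H22

/-- Cusp forms of weight `≤ 0` on `Γ₀(N)` vanish. -/
theorem cuspForm_eq_zero_of_nonpos (N : ℕ) [NeZero N] {k : ℤ} (hk : k ≤ 0)
    (f : CuspForm (CongruenceSubgroup.Gamma0 N) k) : f = 0 := by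
  rcases hk.lt_or_eq with hneg | rfl
  · apply CuspForm.toModularFormₗ_injective
    rw [map_zero]
    exact ModularForm.isZero_of_neg_weight hneg _
  · obtain ⟨c, hc⟩ := ModularForm.eq_const_of_weight_zero (CuspForm.toModularFormₗ f)
    have hc' : (f : ℍ → ℂ) = Function.const ℍ c := hc
    have hz : IsZeroAtImInfty (f : ℍ → ℂ) := CuspFormClass.zero_at_infty f
    have hc0 : c = 0 := by
      have h1 : Filter.Tendsto (f : ℍ → ℂ) atImInfty (nhds 0) := hz
      rw [hc'] at h1
      exact (tendsto_nhds_unique h1 tendsto_const_nhds).symm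
    ext z
    rw [hc', hc0]
    rfl

/-- Cusp forms of odd weight on `Γ₀(N)` vanish, since `-1 ∈ Γ₀(N)`. -/
theorem cuspForm_eq_zero_of_odd (N : ℕ) [NeZero N] {k : ℤ} (hk : Odd k)
    (f : CuspForm (CongruenceSubgroup.Gamma0 N) k) : f = 0 := by
  have hmem : (-1 : SL(2, ℤ)) ∈ CongruenceSubgroup.Gamma0 N := by
    simp [CongruenceSubgroup.Gamma0_mem]
  ext z
  have h := SlashInvariantForm.slash_action_eqn_SL'' f hmem z
  have h1 : ((-1 : SL(2, ℤ)) • z) = z := by
    simp
  have h2 : denom ((-1 : SL(2, ℤ)) : GL (Fin 2) ℝ) z = -1 := by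
    simp [denom]
  rw [h1] at h
  simp only [h2] at h
  rw [hk.neg_one_zpow] at h
  have h3 : (2 : ℂ) * f z = 0 := by linear_combination h
  have := mul_eq_zero.mp h3
  simpa using this

/-- If the space of cusp forms is zero then its Hecke algebra is a finite `ℤ`-module. -/
theorem finite_heckeAlgebra_of_forall_eq_zero (N : ℕ) [NeZero N] (k : ℤ) (S : Set ℕ)
    (h0 : ∀ f : CuspForm (CongruenceSubgroup.Gamma0 N) k, f = 0) :
    Module.Finite ℤ (CuspForm.heckeAlgebra N k S) := by
  have hsub : Subsingleton (Module.End ℂ (CuspForm (CongruenceSubgroup.Gamma0 N) k)) :=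
    ⟨fun a b => LinearMap.ext fun f => by rw [h0 (a f), h0 (b f)]⟩
  have hsub' : Subsingleton (CuspForm.heckeAlgebra N k S) :=
    ⟨fun a b => Subtype.ext (Subsingleton.elim _ _)⟩
  exact Module.Finite.of_surjective (0 : ℤ →ₗ[ℤ] CuspForm.heckeAlgebra N k S)
    fun y => ⟨0, Subsingleton.elim _ _⟩

end H22
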