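import Fermat.Agent.S22.Period
import Fermat.Prelude.Thm_Subgroup_IsArithmetic_exists_nat_mem_strictPeriods_conj

/-!
# S22: separation — a cusp form with vanishing period polynomials is zero (helper22)
-/

set_option autoImplicit false

noncomputable section

open UpperHalfPlane Function Polynomial
open scoped Manifold MatrixGroups ModularForm Real Pointwise

namespace H22

/-- A polynomial function on `ℍ` which is periodic is constant. -/
theorem polyFun_const_of_periodic {d : ℕ} (w : Fin d → ℂ) {M : ℕ} (hM : 0 < M)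
    (hper : Periodic (polyFun w ∘ ofComplex) (M : ℂ)) (j : Fin d) (hj : (j : ℕ) ≠ 0) :
    w j = 0 := by
  set P := vecPoly w with hP
  have hval : ∀ z : ℂ, 0 < z.im → polyFun w (ofComplex z) = P.eval z := by
    intro z hz
    rw [hP, eval_vecPoly]
    simp [polyFun, ofComplex_apply_of_im_pos hz]
  have hroots : ∀ k : ℕ, (P - C (P.eval Complex.I)).eval (Complex.I + k * M) = 0 := by
    intro k
    have h1 : (polyFun w ∘ ofComplex) (Complex.I + k • (M : ℂ)) = (polyFun w ∘ ofComplex) Complex.I :=
      (hper.nsmul k) Complex.I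
    have him : 0 < (Complex.I + k * (M : ℂ)).im := by simp
    simp only [Function.comp_apply, nsmul_eq_mul] at h1
    rw [hval _ him, hval _ (by simp)] at h1
    simp [h1]
  have hinj : Function.Injective (fun k : ℕ => Complex.I + (k : ℂ) * (M : ℂ)) := by
    intro a b hab
    have h2 : (a : ℂ) * (M : ℂ) = (b : ℂ) * (M : ℂ) := add_left_cancel hab
    have hM' : (M : ℂ) ≠ 0 := by exact_mod_cast hM.ne'
    have h3 : (a : ℂ) = (b : ℂ) := mul_right_cancel₀ hM' h2
    exact_mod_cast h3
  have hzero : P - C (P.eval Complex.I) = 0 := by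
    refine Polynomial.eq_zero_of_infinite_isRoot _ ?_
    refine Set.infinite_of_injective_forall_mem hinj (fun k => ?_)
    exact hroots k
  have hPc : P = C (P.eval Complex.I) := sub_eq_zero.mp hzero
  rw [← coeff_vecPoly w j, ← hP, hPc, coeff_C, if_neg hj]

theorem polyFun_eq_const_of_periodic {d : ℕ} (w : Fin (d + 1) → ℂ) {M : ℕ} (hM : 0 < M)
    (hper : Periodic (polyFun w ∘ ofComplex) (M : ℂ)) :
    polyFun w = fun _ => w 0 := by
  funext τ
  unfold polyFun
  rw [Finset.sum_eq_single (0 : Fin (d + 1))]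
  · simp
  · intro j _ hj
    rw [polyFun_const_of_periodic w hM hper j (fun h => hj (Fin.ext h)), zero_mul]
  · simp

variable {N : ℕ} [NeZero N] (n : ℕ)

theorem isCusp_SL_smul_infty (σ : SL(2, ℤ)) :
    IsCusp ((σ : GL (Fin 2) ℝ) • OnePoint.infty)
      (Subgroup.map (Matrix.SpecialLinearGroup.mapGL ℝ) (CongruenceSubgroup.Gamma0 N)) := by
  rw [Subgroup.IsArithmetic.isCusp_iff_isCusp_SL2Z, isCusp_SL2Z_iff']
  exact ⟨σ, rfl⟩

theorem slash_isZeroAtImInfty (f : CuspForm (CongruenceSubgroup.Gamma0 N) ((n : ℤ) + 2))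
    (σ : SL(2, ℤ)) : IsZeroAtImInfty ((⇑f : ℍ → ℂ) ∣[((n : ℤ) + 2)] σ) := by
  have h := CuspFormClass.zero_at_cusps f (isCusp_SL_smul_infty (N := N) σ)
  have := h (σ : GL (Fin 2) ℝ) rfl
  rwa [← ModularForm.SL_slash] at this

/-- The slash-invariant form attached to an invariant function. -/
def invForm (k : ℤ) (F : ℍ → ℂ)
    (hinv : ∀ γ : CongruenceSubgroup.Gamma0 N, F ∣[k] (γ : SL(2, ℤ)) = F) :
    SlashInvariantForm
      (Subgroup.map (Matrix.SpecialLinearGroup.mapGL ℝ) (CongruenceSubgroup.Gamma0 N)) k where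
  toFun := F
  slash_action_eq' := by
    rintro _ ⟨γ, hγ, rfl⟩
    have := hinv ⟨γ, hγ⟩
    rwa [ModularForm.SL_slash] at this

theorem isBoundedAtImInfty_eich_slash
    (f : CuspForm (CongruenceSubgroup.Gamma0 N) ((n : ℤ) + 2))
    (hinv : ∀ γ : CongruenceSubgroup.Gamma0 N, eich n f ∣[(-(n : ℤ))] (γ : SL(2, ℤ)) = eich n f)
    (σ : SL(2, ℤ)) : IsBoundedAtImInfty (eich n f ∣[(-(n : ℤ))] σ) := by
  obtain ⟨M, hM, hMper⟩ := Subgroup.IsArithmetic.exists_nat_mem_strictPeriods_conj
    (Subgroup.map (Matrix.SpecialLinearGroup.mapGL ℝ) (CongruenceSubgroup.Gamma0 N))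
  have hMσ : (M : ℝ) ∈ (ConjAct.toConjAct ((σ : GL (Fin 2) ℝ))⁻¹ •
      (Subgroup.map (Matrix.SpecialLinearGroup.mapGL ℝ) (CongruenceSubgroup.Gamma0 N))).strictPeriods := by
    have h := hMper σ⁻¹
    rw [map_inv, map_inv] at h
    exact h
  have hMpos : (0 : ℝ) < (M : ℝ) := by exact_mod_cast hM
  -- the translated cusp form
  set g : ℍ → ℂ := (⇑f : ℍ → ℂ) ∣[((n : ℤ) + 2)] σ with hg
  have hgper : Periodic (g ∘ ofComplex) ((M : ℝ) : ℂ) := by
    have := SlashInvariantFormClass.periodic_comp_ofComplex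
      (SlashInvariantForm.translate f (σ : GL (Fin 2) ℝ)) hMσ
    rwa [SlashInvariantForm.coe_translate, ← ModularForm.SL_slash] at this
  have hghol : MDiff g := by
    rw [hg, ModularForm.SL_slash]
    exact (cusp_mdiff f).slash _ _
  have hgzero : IsZeroAtImInfty g := slash_isZeroAtImInfty n f σ
  set G := eichler (M : ℝ) (n + 1) g with hG
  have hGhol : MDiff G := eichler_mdiff hMpos hgper hghol hgzero _
  have hGper : Periodic (G ∘ ofComplex) ((M : ℝ) : ℂ) := eichler_periodic hMpos hgper hghol hgzero _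
  have hGzero : IsZeroAtImInfty G := eichler_isZeroAtImInfty hMpos hgper hghol hgzero _
  -- the Eichler integral translated
  have hE := eich_mdiff n f
  have hEσ : MDiff (eich n f ∣[(-(n : ℤ))] σ) := by
    rw [ModularForm.SL_slash]
    exact hE.slash _ _
  have hEσper : Periodic ((eich n f ∣[(-(n : ℤ))] σ) ∘ ofComplex) ((M : ℝ) : ℂ) := by
    have := SlashInvariantFormClass.periodic_comp_ofComplex
      (SlashInvariantForm.translate (invForm (-(n : ℤ)) (eich n f) hinv) (σ : GL (Fin 2) ℝ)) hMσ
    rwa [SlashInvariantForm.coe_translate, ← ModularForm.SL_slash] at this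
  -- difference is a polynomial
  obtain ⟨w, hw⟩ : ∃ w : Fin (n + 1) → ℂ, eich n f ∣[(-(n : ℤ))] σ - G = polyFun w := by
    refine exists_polyFun_of_iteratedDeriv_eq_zero (n + 1) (hEσ.sub hGhol) (fun τ => ?_)
    have hcomp : ((eich n f ∣[(-(n : ℤ))] σ - G) ∘ ofComplex) =
        ((eich n f ∣[(-(n : ℤ))] σ) ∘ ofComplex) - (G ∘ ofComplex) := rfl
    rw [hcomp, iteratedDeriv_sub (contDiffAt_comp_ofComplex hEσ _ τ)
      (contDiffAt_comp_ofComplex hGhol _ τ), iteratedDeriv_eich_slash,
      eichler_iteratedDeriv hMpos hgper hghol hgzero (n + 1) τ, sub_self]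
  have hwper : Periodic (polyFun w ∘ ofComplex) (M : ℂ) := by
    rw [← hw]
    intro z
    have h1 := hEσper z
    have h2 := hGper z
    simp only [Function.comp_apply, Pi.sub_apply, Complex.ofReal_natCast] at h1 h2 ⊢
    rw [h1, h2]
  have hconst := polyFun_eq_const_of_periodic w hM hwper
  have hsum : eich n f ∣[(-(n : ℤ))] σ = G + fun _ => w 0 := by
    rw [← hconst, ← hw]
    abel
  rw [hsum]
  exact hGzero.isBoundedAtImInfty.add (Filter.const_boundedAtFilter _ (w 0))

/-- Separation: if all period polynomials of `f` vanish then `f = 0`. -/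
theorem eq_zero_of_eich_invariant
    (f : CuspForm (CongruenceSubgroup.Gamma0 N) ((n : ℤ) + 2))
    (hinv : ∀ γ : CongruenceSubgroup.Gamma0 N, eich n f ∣[(-(n : ℤ))] (γ : SL(2, ℤ)) = eich n f) :
    f = 0 := by
  have hEz : IsZeroAtImInfty (eich n f) :=
    eichler_isZeroAtImInfty one_pos (cusp_periodic f) (cusp_mdiff f) (cusp_isZeroAtImInfty f) _
  have hzero : eich n f = 0 := by
    rcases Nat.eq_zero_or_pos n with hn | hn
    · have hw : (-(n : ℤ)) = 0 := by simp [hn]
      let Fm : ModularForm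
          (Subgroup.map (Matrix.SpecialLinearGroup.mapGL ℝ) (CongruenceSubgroup.Gamma0 N)) 0 :=
        { toSlashInvariantForm := invForm 0 (eich n f) (fun γ => by
            have := hinv γ
            rwa [hw] at this)
          holo' := eich_mdiff n f
          bdd_at_cusps' := fun {c} hc => by
            have hc' : IsCusp c 𝒮ℒ := (Subgroup.IsArithmetic.isCusp_iff_isCusp_SL2Z _).mp hc
            refine (OnePoint.isBoundedAt_iff_forall_SL2Z hc').mpr (fun σ _ => ?_)
            have := isBoundedAtImInfty_eich_slash n f hinv σ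
            rwa [hw] at this }
      obtain ⟨c, hc⟩ := ModularForm.eq_const_of_weight_zero Fm
      have hc' : eich n f = Function.const ℍ c := hc
      have hc0 : c = 0 := by
        have h1 : Filter.Tendsto (eich n f) atImInfty (nhds 0) := hEz
        rw [hc'] at h1
        exact (tendsto_nhds_unique h1 tendsto_const_nhds).symm
      rw [hc', hc0]
      rfl
    · have hneg : (-(n : ℤ)) < 0 := by
        have : (0 : ℤ) < n := by exact_mod_cast hn
        omega
      let Fm : ModularForm
          (Subgroup.map (Matrix.SpecialLinearGroup.mapGL ℝ) (CongruenceSubgroup.Gamma0 N))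
          (-(n : ℤ)) :=
        { toSlashInvariantForm := invForm (-(n : ℤ)) (eich n f) hinv
          holo' := eich_mdiff n f
          bdd_at_cusps' := fun {c} hc => by
            have hc' : IsCusp c 𝒮ℒ := (Subgroup.IsArithmetic.isCusp_iff_isCusp_SL2Z _).mp hc
            refine (OnePoint.isBoundedAt_iff_forall_SL2Z hc').mpr (fun σ _ => ?_)
            exact isBoundedAtImInfty_eich_slash n f hinv σ }
      have hFm : (⇑Fm : ℍ → ℂ) = eich n f := rfl
      have := ModularForm.isZero_of_neg_weight hneg Fm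
      rw [← hFm, this]
      rfl
  ext τ
  have h1 := eichler_iteratedDeriv one_pos (cusp_periodic f) (cusp_mdiff f)
      (cusp_isZeroAtImInfty f) (n + 1) τ
  have h2 : eichler 1 (n + 1) ⇑f ∘ ofComplex = fun _ => (0 : ℂ) := by
    funext z
    have := congrFun hzero (ofComplex z)
    simpa [eich] using this
  rw [h2] at h1
  rw [← h1]
  simp

end H22
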