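import Mathlib

/-!
# S22 (A1): pure-algebra wrapper (helper16)

If `T = Algebra.adjoin ℤ gens ⊆ End_ℂ E` and `Λ` is a finitely generated `ℤ`-submodule of the dual
of `E`, stable under precomposition by every generator and separating the points of `E`,
then `T` is a finite `ℤ`-module.
-/

set_option autoImplicit false

namespace H22

open Module

/-- Stability under generators propagates to the whole adjoined algebra. -/
theorem wrapper_comp_mem_of_mem_adjoin {E : Type*} [AddCommGroup E] [Module ℂ E]
    (gens : Set (Module.End ℂ E)) (Λ : Submodule ℤ (Module.Dual ℂ E))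
    (hstab : ∀ t ∈ gens, ∀ l ∈ Λ, l ∘ₗ t ∈ Λ)
    {t : Module.End ℂ E} (ht : t ∈ Algebra.adjoin ℤ gens) :
    ∀ l ∈ Λ, l ∘ₗ t ∈ Λ := by
  induction ht using Algebra.adjoin_induction with
  | mem g hg => exact hstab g hg
  | algebraMap n =>
    intro l hl
    have : l ∘ₗ (algebraMap ℤ (Module.End ℂ E) n) = n • l := by
      ext v
      simp
    rw [this]
    exact Λ.smul_mem n hl
  | add x y _ _ hx hy =>
    intro l hl
    rw [LinearMap.comp_add]
    exact Λ.add_mem (hx l hl) (hy l hl)
  | mul x y _ _ hx hy =>
    intro l hl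
    have : l ∘ₗ (x * y) = (l ∘ₗ x) ∘ₗ y := rfl
    rw [this]
    exact hy _ (hx l hl)

/-- (A1) The algebra wrapper. -/
theorem finite_of_separating_lattice {E : Type*} [AddCommGroup E] [Module ℂ E]
    (gens : Set (Module.End ℂ E))
    (Λ : Submodule ℤ (Module.Dual ℂ E)) (hfg : Λ.FG)
    (hstab : ∀ t ∈ gens, ∀ l ∈ Λ, l ∘ₗ t ∈ Λ)
    (hsep : ∀ f : E, (∀ l ∈ Λ, l f = 0) → f = 0) :
    Module.Finite ℤ (Algebra.adjoin ℤ gens) := by
  classical
  have _i1 : Module.Finite ℤ Λ := Module.Finite.iff_fg.mpr hfg
  have _i2 : IsAddTorsionFree (Module.Dual ℂ E) := .of_isTorsionFree ℂ _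
  have _i3 : IsAddTorsionFree Λ := by
    constructor
    intro n hn a b hab
    apply Subtype.ext
    have h : n • (a : Module.Dual ℂ E) = n • (b : Module.Dual ℂ E) := congrArg Subtype.val hab
    exact nsmul_right_injective hn h
  have _i4 : Module.Free ℤ Λ := Module.free_of_finite_type_torsion_free'
  -- the map `t ↦ (l ↦ l ∘ t)`
  let Φ : (Algebra.adjoin ℤ gens) →ₗ[ℤ] (Λ →ₗ[ℤ] Λ) :=
    { toFun := fun t =>
        { toFun := fun l => ⟨(l : Module.Dual ℂ E) ∘ₗ (t : Module.End ℂ E),
            wrapper_comp_mem_of_mem_adjoin gens Λ hstab t.2 l l.2⟩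
          map_add' := fun l l' => by
            apply Subtype.ext
            simp [LinearMap.add_comp]
          map_smul' := fun n l => by
            apply Subtype.ext
            simp [LinearMap.smul_comp] }
      map_add' := fun t s => by
        apply LinearMap.ext
        intro l
        apply Subtype.ext
        simp [LinearMap.comp_add]
      map_smul' := fun n t => by
        apply LinearMap.ext
        intro l
        apply Subtype.ext
        apply LinearMap.ext
        intro v
        simp }
  have hinj : Function.Injective Φ := by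
    rw [injective_iff_map_eq_zero]
    intro t ht
    apply Subtype.ext
    apply LinearMap.ext
    intro v
    apply hsep
    intro l hl
    have h1 := congrArg (fun F : Λ →ₗ[ℤ] Λ => ((F ⟨l, hl⟩ : Λ) : Module.Dual ℂ E) v) ht
    simpa [Φ] using h1
  exact Module.Finite.of_injective Φ hinj

end H22
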