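import Fermat.Agent.S22.HeckePeriod
import Fermat.Agent.S22.Vanish
import Fermat.Agent.S22.Wrapper
import Fermat.Agent.S22.Trivial

/-!
# S22: the period lattice and finiteness of the Hecke algebra in weight `n + 2` (helper22)
-/

set_option autoImplicit false

noncomputable section

open UpperHalfPlane Function
open scoped Manifold MatrixGroups ModularForm

namespace H22

theorem groupFG_SL2Z : Group.FG SL(2, ℤ) :=
  Group.fg_iff.mpr ⟨{ModularGroup.S, ModularGroup.T}, SpecialLinearGroup.SL2Z_generators,
    by simp⟩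

variable {N : ℕ} [NeZero N] (n : ℕ)

theorem groupFG_Gamma0 : Group.FG (CongruenceSubgroup.Gamma0 N) := by
  have := groupFG_SL2Z
  exact Subgroup.fg_of_index_ne_zero _

/-- The coefficient functional `f ↦ (period f γ)ᵢ`. -/
def periodFunctional (γ : CongruenceSubgroup.Gamma0 N) (i : Fin (n + 1)) :
    Module.Dual ℂ (CuspForm (CongruenceSubgroup.Gamma0 N) ((n : ℤ) + 2)) where
  toFun f := period n f γ i
  map_add' f g := by rw [period_add]; rfl
  map_smul' c f := by rw [period_smul]; rfl

theorem periodFunctional_apply (γ : CongruenceSubgroup.Gamma0 N) (i : Fin (n + 1))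
    (f : CuspForm (CongruenceSubgroup.Gamma0 N) ((n : ℤ) + 2)) :
    periodFunctional n γ i f = period n f γ i := rfl

/-- The period lattice: the `ℤ`-span of all coefficient functionals of period polynomials. -/
def periodLattice : Submodule ℤ (Module.Dual ℂ (CuspForm (CongruenceSubgroup.Gamma0 N) ((n : ℤ) + 2))) :=
  Submodule.span ℤ (Set.range fun x : CongruenceSubgroup.Gamma0 N × Fin (n + 1) =>
    periodFunctional n x.1 x.2)

theorem periodFunctional_mem (γ : CongruenceSubgroup.Gamma0 N) (i : Fin (n + 1)) :
    periodFunctional n γ i ∈ periodLattice (N := N) n :=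
  Submodule.subset_span ⟨(γ, i), rfl⟩

theorem periodFunctional_one (i : Fin (n + 1)) :
    periodFunctional n (1 : CongruenceSubgroup.Gamma0 N) i = 0 := by
  ext f
  rw [periodFunctional_apply, period_one]
  rfl

theorem periodFunctional_mul (γ δ : CongruenceSubgroup.Gamma0 N) (i : Fin (n + 1)) :
    periodFunctional n (γ * δ) i =
      ∑ j, (slMat n δ.1 i j) • periodFunctional n γ j + periodFunctional n δ i := by
  ext f
  rw [periodFunctional_apply, period_mul]
  simp only [Pi.add_apply, intAct, LinearMap.add_apply, LinearMap.coe_sum, Finset.sum_apply,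
    LinearMap.smul_apply, periodFunctional_apply, zsmul_eq_mul]

theorem periodFunctional_inv (γ : CongruenceSubgroup.Gamma0 N) (i : Fin (n + 1)) :
    periodFunctional n γ⁻¹ i =
      -∑ j, (slMat n (γ⁻¹).1 i j) • periodFunctional n γ j := by
  ext f
  rw [periodFunctional_apply, period_inv]
  simp only [Pi.neg_apply, intAct, LinearMap.neg_apply, LinearMap.coe_sum, Finset.sum_apply,
    LinearMap.smul_apply, periodFunctional_apply, zsmul_eq_mul]

theorem periodLattice_fg : (periodLattice (N := N) n).FG := by
  obtain ⟨S, hS, hfin⟩ := Group.fg_iff.mp (groupFG_Gamma0 (N := N))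
  set Λ0 : Submodule ℤ (Module.Dual ℂ (CuspForm (CongruenceSubgroup.Gamma0 N) ((n : ℤ) + 2))) :=
    Submodule.span ℤ ((fun x : CongruenceSubgroup.Gamma0 N × Fin (n + 1) =>
      periodFunctional n x.1 x.2) '' (S ×ˢ (Set.univ : Set (Fin (n + 1))))) with hΛ0def
  have hΛ0 : Λ0.FG := Submodule.fg_span ((hfin.prod Set.finite_univ).image _)
  have key : ∀ γ : CongruenceSubgroup.Gamma0 N, ∀ i, periodFunctional n γ i ∈ Λ0 := by
    intro γ
    have hγ : γ ∈ Subgroup.closure S := by rw [hS]; trivial
    induction hγ using Subgroup.closure_induction with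
    | mem x hx =>
      intro i
      exact Submodule.subset_span ⟨(x, i), ⟨hx, trivial⟩, rfl⟩
    | one =>
      intro i
      rw [periodFunctional_one]
      exact Λ0.zero_mem
    | mul x y _ _ hx hy =>
      intro i
      rw [periodFunctional_mul]
      exact Λ0.add_mem (Λ0.sum_mem fun j _ => Λ0.smul_mem _ (hx j)) (hy i)
    | inv x _ hx =>
      intro i
      rw [periodFunctional_inv]
      exact Λ0.neg_mem (Λ0.sum_mem fun j _ => Λ0.smul_mem _ (hx j))
  have hle : periodLattice (N := N) n ≤ Λ0 :=
    Submodule.span_le.mpr (by rintro _ ⟨⟨γ, i⟩, rfl⟩; exact key γ i)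
  exact hΛ0.of_le hle

theorem periodLattice_comp_of_relation
    (t : Module.End ℂ (CuspForm (CongruenceSubgroup.Gamma0 N) ((n : ℤ) + 2)))
    (ht : ∀ γ : CongruenceSubgroup.Gamma0 N,
      ∃ (X : Type) (_ : Fintype X) (γ' : X → CongruenceSubgroup.Gamma0 N)
        (μ : X → Matrix (Fin (n + 1)) (Fin (n + 1)) ℤ),
        ∀ f : CuspForm (CongruenceSubgroup.Gamma0 N) ((n : ℤ) + 2),
          period n (t f) γ = ∑ x, intAct (μ x) (period n f (γ' x))) :
    ∀ l ∈ periodLattice (N := N) n, l ∘ₗ t ∈ periodLattice (N := N) n := by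
  intro l hl
  induction hl using Submodule.span_induction with
  | mem x hx =>
    obtain ⟨⟨γ, i⟩, rfl⟩ := hx
    obtain ⟨X, _, γ', μ, h⟩ := ht γ
    have hrel : periodFunctional n γ i ∘ₗ t =
        ∑ x, ∑ j, (μ x i j) • periodFunctional n (γ' x) j := by
      ext f
      rw [LinearMap.comp_apply, periodFunctional_apply, h f]
      simp only [Finset.sum_apply, intAct, LinearMap.coe_sum, LinearMap.smul_apply,
        periodFunctional_apply, zsmul_eq_mul]
    rw [hrel]
    exact Submodule.sum_mem _ fun x _ => Submodule.sum_mem _ fun j _ =>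
      Submodule.smul_mem _ _ (periodFunctional_mem n (γ' x) j)
  | zero =>
    rw [LinearMap.zero_comp]
    exact Submodule.zero_mem _
  | add x y _ _ hx hy =>
    rw [LinearMap.add_comp]
    exact Submodule.add_mem _ hx hy
  | smul c x _ hx =>
    rw [LinearMap.smul_comp]
    exact Submodule.smul_mem _ _ hx

theorem periodLattice_separating (f : CuspForm (CongruenceSubgroup.Gamma0 N) ((n : ℤ) + 2))
    (h : ∀ l ∈ periodLattice (N := N) n, l f = 0) : f = 0 := by
  apply eq_zero_of_eich_invariant n f
  intro γ
  have hp : period n f γ = 0 := funext fun i => h _ (periodFunctional_mem n γ i)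
  have := polyFun_period n f γ
  rw [hp, polyFun_zero] at this
  exact sub_eq_zero.mp this.symm

/-- Finiteness of the Hecke algebra in weight `n + 2`. -/
theorem finite_adjoin_heckeGenerators (S : Set ℕ) :
    Module.Finite ℤ (Algebra.adjoin ℤ (CuspForm.heckeGenerators N ((n : ℤ) + 2) S)) := by
  refine finite_of_separating_lattice (CuspForm.heckeGenerators N ((n : ℤ) + 2) S)
    (periodLattice (N := N) n) (periodLattice_fg n) ?_ (periodLattice_separating n)
  rintro t (⟨ℓ, hℓ, hℓN, -, rfl⟩ | ⟨q, hqN, -, -, rfl⟩)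
  · exact periodLattice_comp_of_relation n _ (fun γ => period_heckeT n hℓ hℓN γ)
  · exact periodLattice_comp_of_relation n _ (fun γ => period_heckeU n hqN γ)

end H22
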