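import Mathlib
import Fermat.Prelude.Def_CuspForm_HeckeAlgebra

/-!
# S22 shared definitions (helper22)

Eichler integral via q-series, used for the Eichler–Shimura injectivity route to
`Module.Finite ℤ (CuspForm.heckeAlgebra N k S)`.
-/

set_option autoImplicit false

noncomputable section

open UpperHalfPlane

namespace H22

/-- The `s`-fold Eichler integral of an `h`-periodic function `g` on the upper half plane,
defined through its `q`-expansion: `∑ aₘ (2πi m / h)⁻ˢ qₕ(τ)ᵐ`. For `s ≥ 1` the `m = 0` term is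
automatically `0`. -/
def eichler (h : ℝ) (s : ℕ) (g : ℍ → ℂ) : ℍ → ℂ := fun τ =>
  ∑' m : ℕ, (qExpansion h g).coeff m * ((2 * (Real.pi : ℂ) * Complex.I * (m : ℂ) / (h : ℂ)) ^ s)⁻¹ *
    Function.Periodic.qParam h (τ : ℂ) ^ m

/-- The monomial-coefficient polynomial function on `ℍ` attached to a coefficient vector. -/
def polyFun {d : ℕ} (v : Fin d → ℂ) : ℍ → ℂ := fun τ => ∑ j : Fin d, v j * (τ : ℂ) ^ (j : ℕ)

end H22
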