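import Mathlib
import Fermat.Agent.S22.Defs

/-!
# S22 (B2b): a holomorphic function on `ℍ` whose `n`-th derivative vanishes is a polynomial
(helper16)
-/

set_option autoImplicit false

noncomputable section

open UpperHalfPlane Function
open scoped Manifold MatrixGroups ModularForm Real

namespace H22

/-- On an open preconnected set, a holomorphic function with vanishing `n`-th derivative is a
polynomial of degree `< n`. -/
theorem polyLemma_aux {U : Set ℂ} (hU : IsOpen U) (hU' : IsPreconnected U) :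
    ∀ (n : ℕ) (f : ℂ → ℂ), DifferentiableOn ℂ f U → (∀ z ∈ U, iteratedDeriv n f z = 0) →
      ∃ v : Fin n → ℂ, ∀ z ∈ U, f z = ∑ j : Fin n, v j * z ^ (j : ℕ) := by
  intro n
  induction n with
  | zero =>
    intro f _ h0
    exact ⟨Fin.elim0, fun z hz => by simpa using h0 z hz⟩
  | succ n ih =>
    intro f hf h0
    have hf' : DifferentiableOn ℂ (deriv f) U := hf.deriv hU
    obtain ⟨v, hv⟩ := ih (deriv f) hf' (fun z hz => by
      have := h0 z hz
      rwa [iteratedDeriv_succ'] at this)
    -- antiderivative polynomial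
    set g : ℂ → ℂ := fun z => ∑ j : Fin n, (v j / ((j : ℕ) + 1)) * z ^ ((j : ℕ) + 1) with hg
    have hgd : ∀ z, HasDerivAt g (∑ j : Fin n, v j * z ^ (j : ℕ)) z := by
      intro z
      have : ∀ j : Fin n, HasDerivAt (fun z : ℂ => (v j / ((j : ℕ) + 1)) * z ^ ((j : ℕ) + 1))
          (v j * z ^ (j : ℕ)) z := by
        intro j
        have h1 := (hasDerivAt_pow ((j : ℕ) + 1) z).const_mul (v j / ((j : ℕ) + 1))
        have hne : ((j : ℕ) : ℂ) + 1 ≠ 0 := by
          exact_mod_cast Nat.succ_ne_zero (j : ℕ)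
        refine h1.congr_deriv ?_
        simp only [Nat.add_sub_cancel]
        push_cast
        field_simp
      have h2 := HasDerivAt.fun_sum (u := Finset.univ) (fun j _ => this j)
      simpa [hg] using h2
    have hgdiff : DifferentiableOn ℂ g U := fun z _ => (hgd z).differentiableAt.differentiableWithinAt
    have hderiv : U.EqOn (deriv f) (deriv g) := by
      intro z hz
      rw [(hgd z).deriv]
      exact hv z hz
    obtain ⟨a, ha⟩ := hU.exists_eq_add_of_deriv_eq hU' hf hgdiff hderiv
    refine ⟨Fin.cons a (fun j => v j / ((j : ℕ) + 1)), fun z hz => ?_⟩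
    rw [ha hz, Fin.sum_univ_succ]
    simp only [Fin.cons_zero, Fin.val_zero, pow_zero, mul_one, Fin.cons_succ, Fin.val_succ, hg]
    ring

/-- (B2b) A holomorphic function on `ℍ` whose `n`-th derivative vanishes is a polynomial. -/
theorem exists_polyFun_of_iteratedDeriv_eq_zero (n : ℕ) {G : ℍ → ℂ} (hG : MDiff G)
    (h0 : ∀ τ : ℍ, iteratedDeriv n (G ∘ ofComplex) (τ : ℂ) = 0) :
    ∃ v : Fin n → ℂ, G = polyFun v := by
  have hconv : Convex ℝ {z : ℂ | 0 < z.im} := by
    have : {z : ℂ | 0 < z.im} = Complex.imCLM ⁻¹' (Set.Ioi 0) := by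
      ext z; simp
    rw [this]
    exact (convex_Ioi 0).linear_preimage Complex.imCLM.toLinearMap
  obtain ⟨v, hv⟩ := polyLemma_aux isOpen_upperHalfPlaneSet hconv.isPreconnected n
    (G ∘ ofComplex) (UpperHalfPlane.mdifferentiable_iff.mp hG)
    (fun z hz => h0 ⟨z, hz⟩)
  refine ⟨v, funext fun τ => ?_⟩
  have := hv (τ : ℂ) τ.im_pos
  simpa [polyFun, ofComplex_apply] using this

end H22
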