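import Mathlib
import Fermat.Agent.S22.Defs
import Fermat.Agent.S22.PolyLemma

/-!
# S22 (B2a): Bol's identity for `SL(2, ℤ)` (helper16)

`D^n (F ∣[1 - n] γ) = (D^n F) ∣[1 + n] γ`.
-/

set_option autoImplicit false

noncomputable section

open UpperHalfPlane Function Filter Topology
open scoped Manifold MatrixGroups ModularForm Real

namespace H22

section Core

variable {U : Set ℂ} (hU : IsOpen U) {a b c d : ℂ} (hdet : a * d - b * c = 1)
  (hden : ∀ z ∈ U, c * z + d ≠ 0) (hmob : ∀ z ∈ U, (a * z + b) / (c * z + d) ∈ U)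

/-- The weight `1 - n` "slash" of `f` on the complex plane. -/
def bolG (a b c d : ℂ) (n : ℕ) (f : ℂ → ℂ) : ℂ → ℂ :=
  fun z => (c * z + d) ^ ((n : ℤ) - 1) * f ((a * z + b) / (c * z + d))

include hdet in
theorem bol_hasDerivAt_mob {z : ℂ} (hz : c * z + d ≠ 0) :
    HasDerivAt (fun w : ℂ => (a * w + b) / (c * w + d)) ((c * z + d) ^ (-2 : ℤ)) z := by
  have h1 : HasDerivAt (fun w : ℂ => a * w + b) a z := by
    simpa using ((hasDerivAt_id z).const_mul a).add_const b
  have h2 : HasDerivAt (fun w : ℂ => c * w + d) c z := by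
    simpa using ((hasDerivAt_id z).const_mul c).add_const d
  have h3 := h1.div h2 hz
  refine h3.congr_deriv ?_
  rw [zpow_neg, zpow_ofNat]
  field_simp
  linear_combination hdet

theorem bol_hasDerivAt_den_zpow (c d : ℂ) (m : ℤ) {z : ℂ} (hz : c * z + d ≠ 0) :
    HasDerivAt (fun w : ℂ => (c * w + d) ^ m) ((m : ℂ) * c * (c * z + d) ^ (m - 1)) z := by
  have h2 : HasDerivAt (fun w : ℂ => c * w + d) c z := by
    simpa using ((hasDerivAt_id z).const_mul c).add_const d
  have h3 := (hasDerivAt_zpow m (c * z + d) (Or.inl hz)).comp z h2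
  refine h3.congr_deriv ?_
  ring

include hU hdet hden hmob in
theorem bolG_differentiableOn (n : ℕ) {f : ℂ → ℂ} (hf : DifferentiableOn ℂ f U) :
    DifferentiableOn ℂ (bolG a b c d n f) U := by
  intro z hz
  have hfz : DifferentiableAt ℂ f ((a * z + b) / (c * z + d)) :=
    (hf _ (hmob z hz)).differentiableAt (hU.mem_nhds (hmob z hz))
  have h1 := (bol_hasDerivAt_den_zpow c d ((n : ℤ) - 1) (hden z hz)).differentiableAt
  have h2 : DifferentiableAt ℂ (fun w : ℂ => f ((a * w + b) / (c * w + d))) z :=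
    DifferentiableAt.comp z hfz (bol_hasDerivAt_mob hdet (hden z hz)).differentiableAt
  exact (h1.mul h2).differentiableWithinAt

include hU hdet hden hmob in
/-- The key recursion: `d/dz G_{n+2}[f] = (n+1) c G_{n+1}[f] + G_n[f']`. -/
theorem bolG_deriv (n : ℕ) {f : ℂ → ℂ} (hf : DifferentiableOn ℂ f U) {z : ℂ} (hz : z ∈ U) :
    deriv (bolG a b c d (n + 2) f) z =
      ((n : ℂ) + 1) * c * bolG a b c d (n + 1) f z + bolG a b c d n (deriv f) z := by
  have hfz : HasDerivAt f (deriv f ((a * z + b) / (c * z + d))) ((a * z + b) / (c * z + d)) :=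
    ((hf _ (hmob z hz)).differentiableAt (hU.mem_nhds (hmob z hz))).hasDerivAt
  have h1 := bol_hasDerivAt_den_zpow c d (((n + 2 : ℕ) : ℤ) - 1) (hden z hz)
  have h2 : HasDerivAt (fun w : ℂ => f ((a * w + b) / (c * w + d)))
      (deriv f ((a * z + b) / (c * z + d)) * (c * z + d) ^ (-2 : ℤ)) z :=
    HasDerivAt.comp z hfz (bol_hasDerivAt_mob hdet (hden z hz))
  have h3 := h1.mul h2
  have h4 : HasDerivAt (bolG a b c d (n + 2) f) _ z := h3
  rw [h4.deriv]
  simp only [bolG]
  have e1 : (((n + 2 : ℕ) : ℤ) - 1 - 1) = ((n + 1 : ℕ) : ℤ) - 1 := by push_cast; ring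
  have e2 : (c * z + d) ^ (((n + 2 : ℕ) : ℤ) - 1) * (c * z + d) ^ (-2 : ℤ)
      = (c * z + d) ^ ((n : ℤ) - 1) := by
    rw [← zpow_add₀ (hden z hz)]
    congr 1
    push_cast; ring
  rw [e1]
  have e3 : ((((n + 2 : ℕ) : ℤ) - 1 : ℤ) : ℂ) = (n : ℂ) + 1 := by push_cast; ring
  rw [e3]
  linear_combination (deriv f ((a * z + b) / (c * z + d))) * e2

include hU hdet hden hmob in
/-- Bol's identity on an open subset of the plane stable under the Möbius map. -/
theorem bol_core : ∀ (n : ℕ) (f : ℂ → ℂ), DifferentiableOn ℂ f U → ∀ z ∈ U,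
    iteratedDeriv n (bolG a b c d n f) z =
      (c * z + d) ^ (-((n : ℤ) + 1)) * iteratedDeriv n f ((a * z + b) / (c * z + d)) := by
  intro n
  induction n using Nat.twoStepInduction with
  | zero =>
    intro f _ z _
    simp [bolG]
  | one =>
    intro f hf z hz
    have hfz : HasDerivAt f (deriv f ((a * z + b) / (c * z + d))) ((a * z + b) / (c * z + d)) :=
      ((hf _ (hmob z hz)).differentiableAt (hU.mem_nhds (hmob z hz))).hasDerivAt
    have h2 : HasDerivAt (fun w : ℂ => f ((a * w + b) / (c * w + d)))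
        (deriv f ((a * z + b) / (c * z + d)) * (c * z + d) ^ (-2 : ℤ)) z :=
      HasDerivAt.comp z hfz (bol_hasDerivAt_mob hdet (hden z hz))
    have h3 : bolG a b c d 1 f = fun w : ℂ => f ((a * w + b) / (c * w + d)) := by
      funext w
      simp [bolG]
    rw [iteratedDeriv_one, iteratedDeriv_one, h3, h2.deriv]
    norm_num
    ring
  | more n ih0 ih1 =>
    intro f hf z hz
    have hf' : DifferentiableOn ℂ (deriv f) U := hf.deriv hU
    -- step 1: pass to the derivative
    rw [iteratedDeriv_succ']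
    have hev : deriv (bolG a b c d (n + 2) f) =ᶠ[𝓝 z]
        (fun w => ((n : ℂ) + 1) * c * bolG a b c d (n + 1) f w) + bolG a b c d n (deriv f) := by
      filter_upwards [hU.mem_nhds hz] with w hw
      exact bolG_deriv hU hdet hden hmob n hf hw
    rw [hev.iteratedDeriv_eq]
    have hG1 : ContDiffAt ℂ (n + 1 : ℕ) (bolG a b c d (n + 1) f) z :=
      ((bolG_differentiableOn hU hdet hden hmob (n + 1) hf).contDiffOn hU).contDiffAt
        (hU.mem_nhds hz) |>.of_le (by exact_mod_cast le_top)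
    have hG0 : ContDiffAt ℂ (n + 1 : ℕ) (bolG a b c d n (deriv f)) z :=
      ((bolG_differentiableOn hU hdet hden hmob n hf').contDiffOn hU).contDiffAt
        (hU.mem_nhds hz) |>.of_le (by exact_mod_cast le_top)
    have hG1' : ContDiffAt ℂ (n + 1 : ℕ)
        (fun w => ((n : ℂ) + 1) * c * bolG a b c d (n + 1) f w) z :=
      contDiffAt_const.mul hG1
    rw [iteratedDeriv_add hG1' hG0, iteratedDeriv_const_mul_field, ih1 f hf z hz]
    -- second term
    have hev2 : iteratedDeriv n (bolG a b c d n (deriv f)) =ᶠ[𝓝 z]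
        fun w => (c * w + d) ^ (-((n : ℤ) + 1)) *
          iteratedDeriv n (deriv f) ((a * w + b) / (c * w + d)) := by
      filter_upwards [hU.mem_nhds hz] with w hw
      exact ih0 (deriv f) hf' w hw
    have hid : DifferentiableOn ℂ (iteratedDeriv n (deriv f)) U := by
      have := (hf'.contDiffOn hU).differentiableOn_iteratedDerivWithin (m := n)
        (by exact_mod_cast WithTop.coe_lt_top _) hU.uniqueDiffOn
      intro w hw
      refine (this w hw).congr (fun y hy => ?_) ?_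
      · exact (iteratedDerivWithin_of_isOpen hU hy).symm
      · exact (iteratedDerivWithin_of_isOpen hU hw).symm
    have hidz : HasDerivAt (iteratedDeriv n (deriv f))
        (deriv (iteratedDeriv n (deriv f)) ((a * z + b) / (c * z + d)))
        ((a * z + b) / (c * z + d)) :=
      ((hid _ (hmob z hz)).differentiableAt (hU.mem_nhds (hmob z hz))).hasDerivAt
    have h5 : HasDerivAt (fun w : ℂ => iteratedDeriv n (deriv f) ((a * w + b) / (c * w + d)))
        (deriv (iteratedDeriv n (deriv f)) ((a * z + b) / (c * z + d)) * (c * z + d) ^ (-2 : ℤ))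
        z :=
      HasDerivAt.comp (h := fun w : ℂ => (a * w + b) / (c * w + d))
        (h₂ := iteratedDeriv n (deriv f)) z hidz (bol_hasDerivAt_mob hdet (hden z hz))
    have h6 := (bol_hasDerivAt_den_zpow c d (-((n : ℤ) + 1)) (hden z hz)).mul h5
    have hsecond : iteratedDeriv (n + 1) (bolG a b c d n (deriv f)) z =
        ((-((n : ℤ) + 1) : ℤ) : ℂ) * c * (c * z + d) ^ (-((n : ℤ) + 1) - 1) *
          iteratedDeriv n (deriv f) ((a * z + b) / (c * z + d)) +
        (c * z + d) ^ (-((n : ℤ) + 1)) *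
          (deriv (iteratedDeriv n (deriv f)) ((a * z + b) / (c * z + d)) *
            (c * z + d) ^ (-2 : ℤ)) := by
      rw [iteratedDeriv_succ, hev2.deriv_eq]
      exact h6.deriv
    rw [hsecond]
    have hA : iteratedDeriv n (deriv f) = iteratedDeriv (n + 1) f := iteratedDeriv_succ'.symm
    have hB : deriv (iteratedDeriv (n + 1) f) = iteratedDeriv (n + 2) f := iteratedDeriv_succ.symm
    rw [hA, hB]
    have e1 : (c * z + d) ^ (-((n : ℤ) + 1)) * (c * z + d) ^ (-2 : ℤ)
        = (c * z + d) ^ (-(((n + 2 : ℕ) : ℤ) + 1)) := by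
      rw [← zpow_add₀ (hden z hz)]
      have e0 : (-((n : ℤ) + 1) + (-2 : ℤ)) = -(((n + 2 : ℕ) : ℤ) + 1) := by
        push_cast; ring
      rw [e0]
    have e2 : (-((n : ℤ) + 1) - 1) = -(((n + 1 : ℕ) : ℤ) + 1) := by push_cast; ring
    have e3 : ((-((n : ℤ) + 1) : ℤ) : ℂ) = -((n : ℂ) + 1) := by push_cast; ring
    rw [e2, e3]
    generalize (c * z + d) ^ (-(((n + 1 : ℕ) : ℤ) + 1)) = D1 at *
    generalize (c * z + d) ^ (-(((n + 2 : ℕ) : ℤ) + 1)) = D2 at *
    generalize (c * z + d) ^ (-((n : ℤ) + 1)) = D0 at *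
    generalize (c * z + d) ^ (-2 : ℤ) = Dm at *
    linear_combination (iteratedDeriv (n + 2) f ((a * z + b) / (c * z + d))) * e1

end Core

end H22

namespace H22

/-- (B2a) Bol's identity for `SL(2, ℤ)`. -/
theorem bol (n : ℕ) {F : ℍ → ℂ} (hF : MDiff F) (γ : SL(2, ℤ)) (τ : ℍ) :
    iteratedDeriv n ((F ∣[(1 : ℤ) - n] γ) ∘ ofComplex) (τ : ℂ) =
      ((fun z : ℍ => iteratedDeriv n (F ∘ ofComplex) (z : ℂ)) ∣[(1 : ℤ) + n] γ) τ := by
  set a : ℂ := (((γ 0 0 : ℤ) : ℝ) : ℂ) with ha
  set b : ℂ := (((γ 0 1 : ℤ) : ℝ) : ℂ) with hb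
  set c : ℂ := (((γ 1 0 : ℤ) : ℝ) : ℂ) with hc
  set d : ℂ := (((γ 1 1 : ℤ) : ℝ) : ℂ) with hd
  have hdet : a * d - b * c = 1 := by
    have h := Matrix.SpecialLinearGroup.det_coe γ
    rw [Matrix.det_fin_two] at h
    have h' : ((γ 0 0 * γ 1 1 - γ 0 1 * γ 1 0 : ℤ) : ℂ) = 1 := by
      rw [h]; simp
    simp only [ha, hb, hc, hd]
    push_cast at h' ⊢
    linear_combination h'
  have hdenom : ∀ σ : ℍ, denom γ σ = c * (σ : ℂ) + d := fun σ => by
    simp [denom, hc, hd]
  have hsmul : ∀ σ : ℍ, ((γ • σ : ℍ) : ℂ) = (a * (σ : ℂ) + b) / (c * (σ : ℂ) + d) := fun σ => by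
    rw [UpperHalfPlane.coe_specialLinearGroup_apply]
    simp [ha, hb, hc, hd]
  have hden : ∀ z ∈ {z : ℂ | 0 < z.im}, c * z + d ≠ 0 := fun z hz => by
    have := denom_ne_zero γ (⟨z, hz⟩ : ℍ)
    rwa [hdenom] at this
  have hmob : ∀ z ∈ {z : ℂ | 0 < z.im}, (a * z + b) / (c * z + d) ∈ {z : ℂ | 0 < z.im} :=
    fun z hz => by
      have := (γ • (⟨z, hz⟩ : ℍ)).im_pos
      rw [← UpperHalfPlane.coe_im, hsmul] at this
      exact this
  have hFd : DifferentiableOn ℂ (F ∘ ofComplex) {z : ℂ | 0 < z.im} :=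
    UpperHalfPlane.mdifferentiable_iff.mp hF
  -- identify the slashed function with `bolG` on the upper half plane
  have hEq : ∀ w ∈ {z : ℂ | 0 < z.im},
      ((F ∣[(1 : ℤ) - n] γ) ∘ ofComplex) w = bolG a b c d n (F ∘ ofComplex) w := by
    intro w hw
    have hw' : ofComplex w = ⟨w, hw⟩ := ofComplex_apply_of_im_pos hw
    simp only [Function.comp_apply, hw', ModularForm.SL_slash_apply, bolG]
    have h1 : ofComplex ((a * w + b) / (c * w + d)) = γ • (⟨w, hw⟩ : ℍ) := by
      have := hsmul ⟨w, hw⟩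
      rw [← this, ofComplex_apply]
    rw [h1]
    have h2 : denom γ w = c * w + d := hdenom ⟨w, hw⟩
    rw [h2, neg_sub, mul_comm]
  have hev : ((F ∣[(1 : ℤ) - n] γ) ∘ ofComplex) =ᶠ[𝓝 (τ : ℂ)] bolG a b c d n (F ∘ ofComplex) := by
    filter_upwards [isOpen_upperHalfPlaneSet.mem_nhds τ.im_pos] with w hw
    exact hEq w hw
  rw [hev.iteratedDeriv_eq,
    bol_core isOpen_upperHalfPlaneSet hdet hden hmob n (F ∘ ofComplex) hFd (τ : ℂ) τ.im_pos,
    ModularForm.SL_slash_apply, hdenom, hsmul, mul_comm]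
  congr 2
  ring

end H22
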