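import Fermat.Agent.S22.Defs

/-!
# S22: Eichler integral via `q`-series (helper21, slice B1)
-/

set_option autoImplicit false

noncomputable section

open UpperHalfPlane Function Filter Topology
open scoped Manifold MatrixGroups ModularForm Real

namespace H22

local notation "𝕢" => Periodic.qParam

/-- The multiplier `2πi m / h`. -/
def ecMul (h : ℝ) (m : ℕ) : ℂ := 2 * (π : ℂ) * Complex.I * (m : ℂ) / (h : ℂ)

/-- The coefficients of the `s`-fold Eichler integral. -/
def ecCoeff (h : ℝ) (s : ℕ) (g : ℍ → ℂ) (m : ℕ) : ℂ :=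
  (qExpansion h g).coeff m * ((ecMul h m) ^ s)⁻¹

lemma eichler_eq_tsum (h : ℝ) (s : ℕ) (g : ℍ → ℂ) (τ : ℍ) :
    eichler h s g τ = ∑' m : ℕ, ecCoeff h s g m * 𝕢 h (τ : ℂ) ^ m := rfl

lemma ecMul_zero (h : ℝ) : ecMul h 0 = 0 := by simp [ecMul]

lemma ecMul_ne_zero {h : ℝ} (hh : 0 < h) {m : ℕ} (hm : m ≠ 0) : ecMul h m ≠ 0 := by
  have hhC : (h : ℂ) ≠ 0 := by exact_mod_cast hh.ne'
  have hmC : (m : ℂ) ≠ 0 := by exact_mod_cast hm
  have hpi : (π : ℂ) ≠ 0 := by exact_mod_cast Real.pi_ne_zero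
  simp [ecMul, hhC, hmC, hpi]

lemma norm_ecMul {h : ℝ} (hh : 0 < h) (m : ℕ) : ‖ecMul h m‖ = 2 * π * m / h := by
  simp [ecMul, abs_of_pos hh, abs_of_pos Real.pi_pos]

/-- Bound for the inverse powers of the multiplier. -/
lemma norm_inv_ecMul_pow_le {h : ℝ} (hh : 0 < h) (s m : ℕ) :
    ‖((ecMul h m) ^ s)⁻¹‖ ≤ (1 + h / (2 * π)) ^ s := by
  have hK : (1 : ℝ) ≤ 1 + h / (2 * π) := by
    have : 0 ≤ h / (2 * π) := by positivity
    linarith
  rcases Nat.eq_zero_or_pos m with rfl | hm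
  · rcases Nat.eq_zero_or_pos s with rfl | hs
    · simp
    · rw [ecMul_zero, zero_pow hs.ne', inv_zero, norm_zero]
      positivity
  · rw [norm_inv, norm_pow, ← inv_pow, norm_ecMul hh]
    apply pow_le_pow_left₀ (by positivity)
    have hm1 : (1 : ℝ) ≤ m := by exact_mod_cast hm
    have h2 : (2 * π * m / h)⁻¹ = h / (2 * π * m) := by rw [inv_div]
    rw [h2]
    have h3 : h / (2 * π * m) ≤ h / (2 * π) := by
      apply div_le_div_of_nonneg_left hh.le (by positivity)
      have : 2 * π * 1 ≤ 2 * π * m := by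
        apply mul_le_mul_of_nonneg_left hm1 (by positivity)
      linarith
    linarith

section series

variable {h : ℝ} (hh : 0 < h) {d : ℕ → ℂ}
  (hd : ∀ r : ℝ, 0 ≤ r → r < 1 → Summable (fun m : ℕ => ‖d m‖ * r ^ m))
include hh hd

lemma summable_coeff_mul_qParam_pow {z : ℂ} (hz : 0 < z.im) :
    Summable (fun m : ℕ => d m * 𝕢 h z ^ m) := by
  apply Summable.of_norm
  have hq : ‖𝕢 h z‖ < 1 := Periodic.norm_qParam_lt_one hh hz
  have := hd ‖𝕢 h z‖ (norm_nonneg _) hq
  simpa [norm_mul, norm_pow] using this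

omit hh in
lemma summable_nat_mul_coeff {r : ℝ} (hr0 : 0 ≤ r) (hr1 : r < 1) :
    Summable (fun m : ℕ => (m : ℝ) * (‖d m‖ * r ^ m)) := by
  -- pick r < r' < 1
  obtain ⟨r', hr', hr'1⟩ := exists_between hr1
  have hr'0 : 0 < r' := lt_of_le_of_lt hr0 hr'
  set ρ : ℝ := r / r' with hρ
  have hρ0 : 0 ≤ ρ := div_nonneg hr0 hr'0.le
  have hρ1 : ρ < 1 := (div_lt_one hr'0).mpr hr'
  have htend : Tendsto (fun m : ℕ => (m : ℝ) * ρ ^ m) atTop (𝓝 0) :=
    tendsto_self_mul_const_pow_of_lt_one hρ0 hρ1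
  obtain ⟨C, hC⟩ := htend.bddAbove_range
  have hCb : ∀ m : ℕ, (m : ℝ) * ρ ^ m ≤ C := fun m => hC ⟨m, rfl⟩
  have hsum := (hd r' hr'0.le hr'1).mul_left C
  refine Summable.of_nonneg_of_le (fun m => by positivity) (fun m => ?_) hsum
  have e : (m : ℝ) * (‖d m‖ * r ^ m) = ((m : ℝ) * ρ ^ m) * (‖d m‖ * r' ^ m) := by
    have : r ^ m = ρ ^ m * r' ^ m := by
      rw [hρ, div_pow, div_mul_cancel₀]
      exact pow_ne_zero _ hr'0.ne'
    rw [this]; ring
  rw [e]
  exact mul_le_mul_of_nonneg_right (hCb m) (by positivity)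

/-- Termwise differentiation of a `q`-series. -/
lemma hasDerivAt_tsum_coeff_mul_qParam_pow {z : ℂ} (hz : 0 < z.im) :
    HasDerivAt (fun w : ℂ => ∑' m : ℕ, d m * 𝕢 h w ^ m)
      (∑' m : ℕ, d m * ecMul h m * 𝕢 h z ^ m) z := by
  set δ : ℝ := z.im / 2 with hδ
  have hδ0 : 0 < δ := by positivity
  set t : Set ℂ := {w : ℂ | δ < w.im} with ht
  have htopen : IsOpen t := isOpen_lt continuous_const Complex.continuous_im
  have htconv : Convex ℝ t := by
    have : t = Complex.im ⁻¹' (Set.Ioi δ) := rfl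
    rw [this]
    exact (convex_Ioi δ).linear_preimage Complex.imLm
  have htpre : IsPreconnected t := htconv.isPreconnected
  have hzt : z ∈ t := by
    show δ < z.im
    rw [hδ]; linarith
  set r : ℝ := Real.exp (-2 * π * δ / h) with hr
  have hr0 : 0 ≤ r := (Real.exp_pos _).le
  have hr1 : r < 1 := by
    rw [hr, Real.exp_lt_one_iff]
    have : 0 < 2 * π * δ / h := by positivity
    have e : -2 * π * δ / h = -(2 * π * δ / h) := by ring
    rw [e]; linarith
  have hqle : ∀ w ∈ t, ‖𝕢 h w‖ ≤ r := by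
    intro w hw
    rw [Periodic.norm_qParam, hr]
    apply Real.exp_le_exp.mpr
    have hw' : δ < w.im := hw
    have e1 : -2 * π * w.im / h = -(2 * π / h) * w.im := by ring
    have e2 : -2 * π * δ / h = -(2 * π / h) * δ := by ring
    rw [e1, e2]
    have : 0 < 2 * π / h := by positivity
    nlinarith
  set u : ℕ → ℝ := fun m => (2 * π / h) * ((m : ℝ) * (‖d m‖ * r ^ m)) with hu
  have husum : Summable u := (summable_nat_mul_coeff hd hr0 hr1).mul_left _
  have hderiv : ∀ (m : ℕ) (w : ℂ), w ∈ t →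
      HasDerivAt (fun w : ℂ => d m * 𝕢 h w ^ m) (d m * ecMul h m * 𝕢 h w ^ m) w := by
    intro m w _
    have hq : HasDerivAt (𝕢 h) (2 * π * Complex.I / h * 𝕢 h w) w := by
      unfold Periodic.qParam
      have h1 : HasDerivAt (fun z : ℂ => 2 * π * Complex.I * z / h) (2 * π * Complex.I / h) w := by
        have := ((hasDerivAt_id w).const_mul (2 * π * Complex.I)).div_const (h : ℂ)
        simpa using this
      have := h1.cexp
      simpa [mul_comm] using this
    have h2 := (hq.pow m).const_mul (d m)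
    have e : d m * (↑m * 𝕢 h w ^ (m - 1) * (2 * ↑π * Complex.I / ↑h * 𝕢 h w))
        = d m * ecMul h m * 𝕢 h w ^ m := by
      rcases Nat.eq_zero_or_pos m with rfl | hm
      · simp [ecMul_zero]
      · have : 𝕢 h w ^ m = 𝕢 h w ^ (m - 1) * 𝕢 h w := by
          rw [← pow_succ, Nat.sub_add_cancel hm]
        rw [this, ecMul]
        ring
    exact h2.congr_deriv e
  have hbound : ∀ (m : ℕ) (w : ℂ), w ∈ t → ‖d m * ecMul h m * 𝕢 h w ^ m‖ ≤ u m := by
    intro m w hw
    rw [norm_mul, norm_mul, norm_pow, norm_ecMul hh, hu]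
    have h1 : ‖𝕢 h w‖ ^ m ≤ r ^ m := pow_le_pow_left₀ (norm_nonneg _) (hqle w hw) m
    have e : 2 * π / h * ((m : ℝ) * (‖d m‖ * r ^ m)) = ‖d m‖ * (2 * π * m / h) * r ^ m := by ring
    show _ ≤ 2 * π / h * ((m : ℝ) * (‖d m‖ * r ^ m))
    rw [e]
    exact mul_le_mul_of_nonneg_left h1 (by positivity)
  exact hasDerivAt_tsum_of_isPreconnected husum htopen htpre hderiv hbound hzt
    (summable_coeff_mul_qParam_pow hh hd hz) hzt

end series


/-- `qExpansion_coeff_unique` for plain functions on `ℍ`. -/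
theorem qExpansion_coeff_unique_fun (h : ℝ) (f : ℍ → ℂ) (c : ℕ → ℂ) (hh : 0 < h)
    (han : AnalyticAt ℂ (cuspFunction h f) 0)
    (hf : ∀ τ : ℍ, HasSum (fun m => c m • 𝕢 h (τ : ℂ) ^ m) (f τ)) (m : ℕ) :
    c m = (qExpansion h f).coeff m := by
  let _i : FunLike (ℍ → ℂ) ℍ ℂ := ⟨id, fun _ _ h => h⟩
  exact UpperHalfPlane.qExpansion_coeff_unique (F := ℍ → ℂ) f hh han hf m

section B1
variable {h : ℝ} (hh : 0 < h) {g : ℍ → ℂ}
  (hper : Periodic (g ∘ ofComplex) h) (hhol : MDiff g) (hzero : IsZeroAtImInfty g) (s : ℕ)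
include hh hper hhol hzero

lemma qExpansion_coeff_zero_eq_zero : (qExpansion h g).coeff 0 = 0 := by
  rw [qExpansion_coeff_zero hh
    (analyticAt_cuspFunction_zero hh hper hhol hzero.isBoundedAtImInfty) hper]
  exact hzero.valueAtInfty_eq_zero

lemma summable_norm_qExpansion_coeff {r : ℝ} (hr0 : 0 ≤ r) (hr1 : r < 1) :
    Summable (fun m : ℕ => ‖(qExpansion h g).coeff m‖ * r ^ m) := by
  have hq : ‖(r : ℂ)‖ < 1 := by
    rw [Complex.norm_real, Real.norm_eq_abs, abs_of_nonneg hr0]; exact hr1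
  have := (hasSum_qExpansion_of_norm_lt hh hper hhol hzero.isBoundedAtImInfty hq).summable.norm
  simpa [norm_smul, norm_pow, Complex.norm_real, abs_of_nonneg hr0] using this

lemma summable_norm_ecCoeff {r : ℝ} (hr0 : 0 ≤ r) (hr1 : r < 1) :
    Summable (fun m : ℕ => ‖ecCoeff h s g m‖ * r ^ m) := by
  have hsum := (summable_norm_qExpansion_coeff hh hper hhol hzero hr0 hr1).mul_left
    ((1 + h / (2 * π)) ^ s)
  refine Summable.of_nonneg_of_le (fun m => by positivity) (fun m => ?_) hsum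
  rw [ecCoeff, norm_mul]
  have := norm_inv_ecMul_pow_le hh s m
  calc ‖(qExpansion h g).coeff m‖ * ‖(ecMul h m ^ s)⁻¹‖ * r ^ m
      ≤ ‖(qExpansion h g).coeff m‖ * (1 + h / (2 * π)) ^ s * r ^ m := by
        gcongr
    _ = (1 + h / (2 * π)) ^ s * (‖(qExpansion h g).coeff m‖ * r ^ m) := by ring

lemma ecCoeff_succ_mul (m : ℕ) :
    ecCoeff h (s + 1) g m * ecMul h m = ecCoeff h s g m := by
  rcases Nat.eq_zero_or_pos m with rfl | hm
  · rw [ecMul_zero, mul_zero, ecCoeff, qExpansion_coeff_zero_eq_zero hh hper hhol hzero, zero_mul]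
  · have hne := ecMul_ne_zero hh hm.ne'
    rw [ecCoeff, ecCoeff, pow_succ, mul_inv, mul_assoc, mul_assoc, inv_mul_cancel₀ hne, mul_one]

theorem eichler_hasSum (τ : ℍ) :
    HasSum (fun m : ℕ => (qExpansion h g).coeff m *
      ((2 * (π : ℂ) * Complex.I * (m : ℂ) / (h : ℂ)) ^ s)⁻¹ * Periodic.qParam h (τ : ℂ) ^ m)
      (eichler h s g τ) :=
  (summable_coeff_mul_qParam_pow hh
    (fun _ hr0 hr1 => summable_norm_ecCoeff hh hper hhol hzero s hr0 hr1) τ.2).hasSum

theorem eichler_zero : eichler h 0 g = g := by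
  funext τ
  have h1 := eichler_hasSum hh hper hhol hzero 0 τ
  have h2 := hasSum_qExpansion hh hper hhol hzero.isBoundedAtImInfty τ
  simp only [pow_zero, inv_one, mul_one, smul_eq_mul] at h1 h2
  exact h1.unique h2

theorem eichler_periodic : Periodic (eichler h s g ∘ ofComplex) h := by
  intro w
  by_cases hw : 0 < w.im
  · have hw' : 0 < (w + h).im := by simpa using hw
    simp only [Function.comp_apply]
    rw [ofComplex_apply_of_im_pos hw, ofComplex_apply_of_im_pos hw']
    simp only [eichler]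
    have : 𝕢 h (w + h) = 𝕢 h w := by
      unfold Periodic.qParam
      have hhC : (h : ℂ) ≠ 0 := by exact_mod_cast hh.ne'
      have : 2 * π * Complex.I * (w + h) / h = 2 * π * Complex.I * w / h + 2 * π * Complex.I := by
        field_simp
      rw [this, Complex.exp_add, Complex.exp_two_pi_mul_I, mul_one]
    simp only [this]
  · have hw0 : w.im ≤ 0 := not_lt.mp hw
    have hw' : (w + h).im ≤ 0 := by simpa using hw0
    simp only [Function.comp_apply]
    rw [ofComplex_apply_eq_of_im_nonpos hw' hw0]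

omit hh hper hhol hzero in
lemma eichler_comp_ofComplex_eventuallyEq (τ : ℍ) :
    eichler h s g ∘ ofComplex =ᶠ[𝓝 (τ : ℂ)]
      fun w : ℂ => ∑' m : ℕ, ecCoeff h s g m * 𝕢 h w ^ m := by
  filter_upwards [isOpen_upperHalfPlaneSet.mem_nhds τ.2] with z hz
  simp only [Function.comp_apply]
  rw [ofComplex_apply_of_im_pos hz]
  rfl

theorem eichler_hasDerivAt (τ : ℍ) :
    HasDerivAt (eichler h (s + 1) g ∘ ofComplex) (eichler h s g τ) (τ : ℂ) := by
  have h1 := hasDerivAt_tsum_coeff_mul_qParam_pow hh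
    (fun r hr0 hr1 => summable_norm_ecCoeff hh hper hhol hzero (s + 1) hr0 hr1) τ.2
  have h2 : (∑' m : ℕ, ecCoeff h (s + 1) g m * ecMul h m * 𝕢 h (τ : ℂ) ^ m)
      = eichler h s g τ := by
    rw [eichler_eq_tsum]
    congr 1
    funext m
    rw [ecCoeff_succ_mul hh hper hhol hzero]
  rw [h2] at h1
  exact h1.congr_of_eventuallyEq (eichler_comp_ofComplex_eventuallyEq (s + 1) τ)

theorem eichler_mdiff : MDiff (eichler h s g) := by
  rcases Nat.eq_zero_or_pos s with rfl | hs
  · rw [eichler_zero hh hper hhol hzero]; exact hhol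
  · obtain ⟨s', rfl⟩ : ∃ s', s = s' + 1 := ⟨s - 1, (Nat.sub_add_cancel hs).symm⟩
    intro τ
    exact UpperHalfPlane.mdifferentiableAt_iff.mpr
      (eichler_hasDerivAt hh hper hhol hzero s' τ).differentiableAt

lemma eichler_hasSum_smul (τ : ℍ) :
    HasSum (fun m : ℕ => ecCoeff h s g m • 𝕢 h (τ : ℂ) ^ m) (eichler h s g τ) := by
  simpa [smul_eq_mul, ecCoeff, ecMul] using eichler_hasSum hh hper hhol hzero s τ

lemma eichler_isBoundedAtImInfty : IsBoundedAtImInfty (eichler h s g) :=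
  isBoundedAtImInfty_of_hasSum_qExpansion hh (eichler_hasSum_smul hh hper hhol hzero s)

lemma eichler_analyticAt_cuspFunction_zero :
    AnalyticAt ℂ (cuspFunction h (eichler h s g)) 0 :=
  analyticAt_cuspFunction_zero hh (eichler_periodic hh hper hhol hzero s)
    (eichler_mdiff hh hper hhol hzero s) (eichler_isBoundedAtImInfty hh hper hhol hzero s)

theorem eichler_qExpansion_coeff (m : ℕ) :
    (qExpansion h (eichler h s g)).coeff m =
      (qExpansion h g).coeff m * ((2 * (π : ℂ) * Complex.I * (m : ℂ) / (h : ℂ)) ^ s)⁻¹ := by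
  have := qExpansion_coeff_unique_fun h (eichler h s g) (ecCoeff h s g) hh
    (eichler_analyticAt_cuspFunction_zero hh hper hhol hzero s)
    (eichler_hasSum_smul hh hper hhol hzero s) m
  rw [← this]
  rfl

theorem eichler_isZeroAtImInfty : IsZeroAtImInfty (eichler h s g) := by
  have hper' := eichler_periodic hh hper hhol hzero s
  have han := eichler_analyticAt_cuspFunction_zero hh hper hhol hzero s
  have h0 : cuspFunction h (eichler h s g) 0 = 0 := by
    have h1 := qExpansion_coeff_zero hh han hper'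
    rw [cuspFunction_apply_zero hh han hper', ← h1, eichler_qExpansion_coeff hh hper hhol hzero,
      qExpansion_coeff_zero_eq_zero hh hper hhol hzero, zero_mul]
  have htend : Tendsto (fun τ : ℍ => cuspFunction h (eichler h s g) (𝕢 h τ)) atImInfty
      (𝓝 (cuspFunction h (eichler h s g) 0)) :=
    han.continuousAt.tendsto.comp (qParam_tendsto_atImInfty hh)
  rw [h0] at htend
  have heq : (fun τ : ℍ => cuspFunction h (eichler h s g) (𝕢 h τ)) = eichler h s g := by
    funext τ
    exact eq_cuspFunction τ hh.ne' hper'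
  rw [heq] at htend
  exact htend

theorem eichler_iteratedDeriv (τ : ℍ) :
    iteratedDeriv s (eichler h s g ∘ ofComplex) (τ : ℂ) = g τ := by
  have key : ∀ (j s' : ℕ) (τ : ℍ),
      iteratedDeriv j (eichler h (s' + j) g ∘ ofComplex) (τ : ℂ) = eichler h s' g τ := by
    intro j
    induction j with
    | zero =>
      intro s' τ
      simp [iteratedDeriv_zero, ofComplex_apply]
    | succ j ih =>
      intro s' τ
      rw [iteratedDeriv_succ']
      have hEq : deriv (eichler h (s' + (j + 1)) g ∘ ofComplex) =ᶠ[𝓝 (τ : ℂ)]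
          (eichler h (s' + j) g ∘ ofComplex) := by
        filter_upwards [isOpen_upperHalfPlaneSet.mem_nhds τ.2] with z hz
        have := (eichler_hasDerivAt hh hper hhol hzero (s' + j) ⟨z, hz⟩).deriv
        rw [show s' + (j + 1) = s' + j + 1 from rfl]
        rw [this, Function.comp_apply, ofComplex_apply_of_im_pos hz]
      rw [hEq.iteratedDeriv_eq]
      exact ih s' τ
  have := key s 0 τ
  rw [zero_add, eichler_zero hh hper hhol hzero] at this
  exact this

end B1

end H22
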