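import Fermat.Agent.S22.Period
import Fermat.Prelude.Thm_UpperHalfPlane_qCoeff_heckeT
import Fermat.Prelude.Thm_UpperHalfPlane_qCoeff_heckeU
import Fermat.Prelude.Thm_ModularFormClass_qCoeff_heckeT
import Fermat.Prelude.Thm_ModularFormClass_qCoeff_heckeU
import Fermat.Prelude.Thm_UpperHalfPlane_eq_of_forall_qCoeff_eq
import Fermat.Prelude.Thm_ModularForm_periodic_heckeT_comp_ofComplex
import Fermat.Prelude.Thm_ModularForm_periodic_heckeU_comp_ofComplex
import Fermat.Prelude.Thm_ModularForm_isBoundedAtImInfty_heckeT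
import Fermat.Prelude.Thm_ModularForm_isBoundedAtImInfty_heckeU
import Fermat.Prelude.Thm_ModularForm_mdifferentiable_heckeT
import Fermat.Prelude.Thm_ModularForm_mdifferentiable_heckeU

/-!
# S22: Eichler integrals and Hecke operators (helper22)

`E (T_p f) = p^(n+1) • heckeT (-n) p (E f)` and the analogue for `U_q`, by comparing
`q`-expansions.
-/

set_option autoImplicit false

noncomputable section

open UpperHalfPlane Function
open scoped Manifold MatrixGroups ModularForm Real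

namespace H22

/-- The Eichler weight factor `((2πi m)^(s))⁻¹`. -/
def ecoef (s m : ℕ) : ℂ := ((2 * (π : ℂ) * Complex.I * (m : ℂ)) ^ s)⁻¹

theorem ecoef_mul (s m : ℕ) {p : ℕ} (_hp : p ≠ 0) :
    ecoef s (m * p) = ecoef s m * ((p : ℂ) ^ s)⁻¹ := by
  unfold ecoef
  push_cast
  rw [← mul_inv, ← mul_pow]
  congr 2
  ring

theorem two_pi_I_ne_zero' : (2 * (π : ℂ) * Complex.I) ≠ 0 := by
  simp [Real.pi_ne_zero]

section

variable {g : ℍ → ℂ} (hper : Periodic (g ∘ ofComplex) (1 : ℝ)) (hhol : MDiff g)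
  (hzero : IsZeroAtImInfty g) (s : ℕ)
include hper hhol hzero

theorem qCoeff_eichler_one (m : ℕ) :
    ModularFormClass.qCoeff (eichler 1 s g) m = ModularFormClass.qCoeff g m * ecoef s m := by
  unfold ModularFormClass.qCoeff ecoef
  rw [eichler_qExpansion_coeff one_pos hper hhol hzero s m]
  simp

theorem eichler_one_periodic : Periodic (eichler 1 s g ∘ ofComplex) (1 : ℝ) :=
  eichler_periodic one_pos hper hhol hzero s

theorem eichler_one_bdd : IsBoundedAtImInfty (eichler 1 s g) :=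
  (eichler_isZeroAtImInfty one_pos hper hhol hzero s).isBoundedAtImInfty

end

theorem periodic_one_cast {F : ℍ → ℂ} (h : Periodic (F ∘ ofComplex) (1 : ℝ)) :
    Periodic (F ∘ ofComplex) 1 := by
  simpa using h

theorem periodic_smul_fun {F : ℍ → ℂ} (c : ℂ) (h : Periodic (F ∘ ofComplex) 1) :
    Periodic ((c • F) ∘ ofComplex) 1 := by
  intro z
  have := h z
  simp only [Function.comp_apply, Pi.smul_apply] at this ⊢
  rw [this]

theorem qCoeff_smul_fun {F : ℍ → ℂ} (c : ℂ) (hper : Periodic (F ∘ ofComplex) 1)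
    (hhol : MDiff F) (hbdd : IsBoundedAtImInfty F) (m : ℕ) :
    ModularFormClass.qCoeff (c • F) m = c * ModularFormClass.qCoeff F m := by
  unfold ModularFormClass.qCoeff
  have hper' : Periodic (F ∘ ofComplex) ((1 : ℝ) : ℂ) := by simpa using hper
  rw [qExpansion_smul (analyticAt_cuspFunction_zero one_pos hper' hhol hbdd) c]
  simp

variable {N : ℕ} [NeZero N] (n : ℕ)

theorem eichler_heckeT {p : ℕ} (hp : p.Prime) (hpN : ¬ p ∣ N)
    (f : CuspForm (CongruenceSubgroup.Gamma0 N) ((n : ℤ) + 2)) :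
    eichler 1 (n + 1) ⇑(CuspForm.heckeTLin ((n : ℤ) + 2) hp hpN f) =
      ((p : ℂ) ^ (n + 1)) • ModularForm.heckeT (-(n : ℤ)) p (eichler 1 (n + 1) ⇑f) := by
  have hp0 : p ≠ 0 := hp.ne_zero
  have hpc : (p : ℂ) ≠ 0 := by exact_mod_cast hp0
  set Tf := CuspForm.heckeTLin ((n : ℤ) + 2) hp hpN f with hTf
  set E := eichler 1 (n + 1) ⇑f with hE
  have hEper : Periodic (E ∘ ofComplex) 1 :=
    periodic_one_cast (eichler_one_periodic (cusp_periodic f) (cusp_mdiff f)
      (cusp_isZeroAtImInfty f) _)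
  have hEhol : MDiff E := eichler_mdiff one_pos (cusp_periodic f) (cusp_mdiff f)
      (cusp_isZeroAtImInfty f) _
  have hEbdd : IsBoundedAtImInfty E := eichler_one_bdd (cusp_periodic f) (cusp_mdiff f)
      (cusp_isZeroAtImInfty f) _
  have hHper := ModularForm.periodic_heckeT_comp_ofComplex hEper (-(n : ℤ)) p
  have hHhol := ModularForm.mdifferentiable_heckeT hEhol (-(n : ℤ)) p
  have hHbdd := ModularForm.isBoundedAtImInfty_heckeT hEbdd (-(n : ℤ)) p
  refine UpperHalfPlane.eq_of_forall_qCoeff_eq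
    (periodic_one_cast (eichler_one_periodic (cusp_periodic Tf) (cusp_mdiff Tf)
      (cusp_isZeroAtImInfty Tf) _))
    (eichler_mdiff one_pos (cusp_periodic Tf) (cusp_mdiff Tf) (cusp_isZeroAtImInfty Tf) _)
    (eichler_one_bdd (cusp_periodic Tf) (cusp_mdiff Tf) (cusp_isZeroAtImInfty Tf) _)
    (periodic_smul_fun _ hHper) (hHhol.const_smul _) ?_ (fun m => ?_)
  · have : IsBoundedAtImInfty (fun z => ((p : ℂ) ^ (n + 1)) * ModularForm.heckeT (-(n : ℤ)) p E z) :=
      (Filter.const_boundedAtFilter _ ((p : ℂ) ^ (n + 1))).mul hHbdd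
    exact this
  · rw [qCoeff_eichler_one (cusp_periodic Tf) (cusp_mdiff Tf) (cusp_isZeroAtImInfty Tf),
      qCoeff_smul_fun _ hHper hHhol hHbdd,
      UpperHalfPlane.qCoeff_heckeT hEper hEhol hEbdd (-(n : ℤ)) hp0 m]
    have h1 : ModularFormClass.qCoeff (⇑Tf) m =
        ModularForm.coeffHeckeT ((n : ℤ) + 2) p (ModularFormClass.qCoeff ⇑f) m := by
      rw [hTf, CuspForm.coe_heckeTLin_apply]
      exact ModularFormClass.qCoeff_heckeT f (CongruenceSubgroup.one_mem_strictPeriods_Gamma0 N) hp0 m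
    rw [h1]
    simp only [ModularForm.coeffHeckeT]
    rw [hE, qCoeff_eichler_one (cusp_periodic f) (cusp_mdiff f) (cusp_isZeroAtImInfty f),
      ecoef_mul _ _ hp0]
    have hz1 : (p : ℂ) ^ ((n : ℤ) + 2 - 1) = (p : ℂ) ^ (n + 1) := by
      rw [show (n : ℤ) + 2 - 1 = ((n + 1 : ℕ) : ℤ) by push_cast; ring, zpow_natCast]
    have hz2 : (p : ℂ) ^ (-(n : ℤ) - 1) = ((p : ℂ) ^ (n + 1))⁻¹ := by
      rw [show -(n : ℤ) - 1 = -((n + 1 : ℕ) : ℤ) by push_cast; ring, zpow_neg, zpow_natCast]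
    rw [hz1, hz2]
    by_cases hdiv : p ∣ m
    · rw [if_pos hdiv, if_pos hdiv]
      obtain ⟨m', rfl⟩ := hdiv
      rw [Nat.mul_div_cancel_left m' hp.pos,
        qCoeff_eichler_one (cusp_periodic f) (cusp_mdiff f) (cusp_isZeroAtImInfty f)]
      rw [mul_comm p m', ecoef_mul _ _ hp0]
      field_simp
    · rw [if_neg hdiv, if_neg hdiv]
      field_simp
      ring

theorem eichler_heckeU {q : ℕ} (hqN : q ∣ N)
    (f : CuspForm (CongruenceSubgroup.Gamma0 N) ((n : ℤ) + 2)) :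
    eichler 1 (n + 1) ⇑(CuspForm.heckeULin ((n : ℤ) + 2) hqN f) =
      ((q : ℂ) ^ (n + 1)) • ModularForm.heckeU (-(n : ℤ)) q (eichler 1 (n + 1) ⇑f) := by
  have hq0 : q ≠ 0 := fun h => NeZero.ne N (Nat.eq_zero_of_zero_dvd (h ▸ hqN))
  have hqc : (q : ℂ) ≠ 0 := by exact_mod_cast hq0
  set Uf := CuspForm.heckeULin ((n : ℤ) + 2) hqN f with hUf
  set E := eichler 1 (n + 1) ⇑f with hE
  have hEper : Periodic (E ∘ ofComplex) 1 :=
    periodic_one_cast (eichler_one_periodic (cusp_periodic f) (cusp_mdiff f)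
      (cusp_isZeroAtImInfty f) _)
  have hEhol : MDiff E := eichler_mdiff one_pos (cusp_periodic f) (cusp_mdiff f)
      (cusp_isZeroAtImInfty f) _
  have hEbdd : IsBoundedAtImInfty E := eichler_one_bdd (cusp_periodic f) (cusp_mdiff f)
      (cusp_isZeroAtImInfty f) _
  have hHper := ModularForm.periodic_heckeU_comp_ofComplex hEper (-(n : ℤ)) q
  have hHhol := ModularForm.mdifferentiable_heckeU hEhol (-(n : ℤ)) q
  have hHbdd := ModularForm.isBoundedAtImInfty_heckeU hEbdd (-(n : ℤ)) q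
  refine UpperHalfPlane.eq_of_forall_qCoeff_eq
    (periodic_one_cast (eichler_one_periodic (cusp_periodic Uf) (cusp_mdiff Uf)
      (cusp_isZeroAtImInfty Uf) _))
    (eichler_mdiff one_pos (cusp_periodic Uf) (cusp_mdiff Uf) (cusp_isZeroAtImInfty Uf) _)
    (eichler_one_bdd (cusp_periodic Uf) (cusp_mdiff Uf) (cusp_isZeroAtImInfty Uf) _)
    (periodic_smul_fun _ hHper) (hHhol.const_smul _) ?_ (fun m => ?_)
  · have : IsBoundedAtImInfty (fun z => ((q : ℂ) ^ (n + 1)) * ModularForm.heckeU (-(n : ℤ)) q E z) :=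
      (Filter.const_boundedAtFilter _ ((q : ℂ) ^ (n + 1))).mul hHbdd
    exact this
  · rw [qCoeff_eichler_one (cusp_periodic Uf) (cusp_mdiff Uf) (cusp_isZeroAtImInfty Uf),
      qCoeff_smul_fun _ hHper hHhol hHbdd,
      UpperHalfPlane.qCoeff_heckeU hEper hEhol hEbdd (-(n : ℤ)) hq0 m]
    have h1 : ModularFormClass.qCoeff (⇑Uf) m =
        ModularForm.coeffHeckeU q (ModularFormClass.qCoeff ⇑f) m := by
      rw [hUf, CuspForm.coe_heckeULin_apply]
      exact ModularFormClass.qCoeff_heckeU f (CongruenceSubgroup.one_mem_strictPeriods_Gamma0 N) hq0 m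
    rw [h1]
    simp only [ModularForm.coeffHeckeU]
    rw [hE, qCoeff_eichler_one (cusp_periodic f) (cusp_mdiff f) (cusp_isZeroAtImInfty f),
      ecoef_mul _ _ hq0]
    field_simp

end H22
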