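import Fermat.Agent.S22.PolyAct
import Fermat.Agent.S22.Eichler
import Fermat.Agent.S22.Bol
import Fermat.Prelude.Thm_CongruenceSubgroup_one_mem_strictPeriods_Gamma0

/-!
# S22: period vectors of cusp forms on `Γ₀(N)` (helper22)
-/

set_option autoImplicit false

noncomputable section

open UpperHalfPlane Function
open scoped Manifold MatrixGroups ModularForm Real

namespace H22

section basics

variable {N : ℕ} [NeZero N] {k : ℤ}

theorem cusp_periodic (f : CuspForm (CongruenceSubgroup.Gamma0 N) k) :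
    Periodic (⇑f ∘ ofComplex) (1 : ℝ) := by
  have := SlashInvariantFormClass.periodic_comp_ofComplex f
    (CongruenceSubgroup.one_mem_strictPeriods_Gamma0 N)
  simpa using this

theorem cusp_mdiff (f : CuspForm (CongruenceSubgroup.Gamma0 N) k) : MDiff (⇑f) :=
  CuspFormClass.holo f

theorem cusp_isZeroAtImInfty (f : CuspForm (CongruenceSubgroup.Gamma0 N) k) :
    IsZeroAtImInfty (⇑f) :=
  CuspFormClass.zero_at_infty f

end basics

section linear

variable {h : ℝ} (hh : 0 < h)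
include hh

theorem eichler_add {g₁ g₂ : ℍ → ℂ} (hper₁ : Periodic (g₁ ∘ ofComplex) h) (hhol₁ : MDiff g₁)
    (hz₁ : IsZeroAtImInfty g₁) (hper₂ : Periodic (g₂ ∘ ofComplex) h) (hhol₂ : MDiff g₂)
    (hz₂ : IsZeroAtImInfty g₂) (s : ℕ) :
    eichler h s (g₁ + g₂) = eichler h s g₁ + eichler h s g₂ := by
  funext τ
  have h1 := eichler_hasSum hh hper₁ hhol₁ hz₁ s τ
  have h2 := eichler_hasSum hh hper₂ hhol₂ hz₂ s τ
  have hq : qExpansion h (g₁ + g₂) = qExpansion h g₁ + qExpansion h g₂ :=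
    qExpansion_add (analyticAt_cuspFunction_zero hh hper₁ hhol₁ hz₁.isBoundedAtImInfty)
      (analyticAt_cuspFunction_zero hh hper₂ hhol₂ hz₂.isBoundedAtImInfty)
  rw [Pi.add_apply]
  have h3 := h1.add h2
  have hfun : (fun m : ℕ => (qExpansion h (g₁ + g₂)).coeff m *
      ((2 * (π : ℂ) * Complex.I * (m : ℂ) / (h : ℂ)) ^ s)⁻¹ * Periodic.qParam h (τ : ℂ) ^ m) =
      fun m : ℕ => (qExpansion h g₁).coeff m *
      ((2 * (π : ℂ) * Complex.I * (m : ℂ) / (h : ℂ)) ^ s)⁻¹ * Periodic.qParam h (τ : ℂ) ^ m +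
      (qExpansion h g₂).coeff m *
      ((2 * (π : ℂ) * Complex.I * (m : ℂ) / (h : ℂ)) ^ s)⁻¹ * Periodic.qParam h (τ : ℂ) ^ m := by
    funext m
    rw [hq, map_add]
    ring
  unfold eichler at h3 ⊢
  rw [hfun]
  exact h3.tsum_eq

theorem eichler_smul {g : ℍ → ℂ} (hper : Periodic (g ∘ ofComplex) h) (hhol : MDiff g)
    (hz : IsZeroAtImInfty g) (s : ℕ) (c : ℂ) :
    eichler h s (c • g) = c • eichler h s g := by
  funext τ
  have h1 := eichler_hasSum hh hper hhol hz s τ
  have hq : qExpansion h (c • g) = c • qExpansion h g :=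
    qExpansion_smul (analyticAt_cuspFunction_zero hh hper hhol hz.isBoundedAtImInfty) c
  rw [Pi.smul_apply, smul_eq_mul]
  have h2 := h1.mul_left c
  have hfun : (fun m : ℕ => (qExpansion h (c • g)).coeff m *
      ((2 * (π : ℂ) * Complex.I * (m : ℂ) / (h : ℂ)) ^ s)⁻¹ * Periodic.qParam h (τ : ℂ) ^ m) =
      fun m : ℕ => c * ((qExpansion h g).coeff m *
      ((2 * (π : ℂ) * Complex.I * (m : ℂ) / (h : ℂ)) ^ s)⁻¹ * Periodic.qParam h (τ : ℂ) ^ m) := by
    funext m
    rw [hq]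
    simp only [map_smul, smul_eq_mul]
    ring
  unfold eichler at h2 ⊢
  rw [hfun]
  exact h2.tsum_eq

end linear

section period

variable {N : ℕ} [NeZero N] (n : ℕ)

/-- The Eichler integral of a cusp form of weight `n + 2`. -/
def eich (f : CuspForm (CongruenceSubgroup.Gamma0 N) ((n : ℤ) + 2)) : ℍ → ℂ :=
  eichler 1 (n + 1) ⇑f

theorem eich_mdiff (f : CuspForm (CongruenceSubgroup.Gamma0 N) ((n : ℤ) + 2)) :
    MDiff (eich n f) :=
  eichler_mdiff one_pos (cusp_periodic f) (cusp_mdiff f) (cusp_isZeroAtImInfty f) _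

theorem eich_add (f g : CuspForm (CongruenceSubgroup.Gamma0 N) ((n : ℤ) + 2)) :
    eich n (f + g) = eich n f + eich n g := by
  unfold eich
  rw [FunLike.coe_add]
  exact eichler_add one_pos (cusp_periodic f) (cusp_mdiff f) (cusp_isZeroAtImInfty f)
    (cusp_periodic g) (cusp_mdiff g) (cusp_isZeroAtImInfty g) _

theorem eich_smul (c : ℂ) (f : CuspForm (CongruenceSubgroup.Gamma0 N) ((n : ℤ) + 2)) :
    eich n (c • f) = c • eich n f := by
  unfold eich
  have : (⇑(c • f) : ℍ → ℂ) = c • ⇑f := by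
    funext z; simp
  rw [this]
  exact eichler_smul one_pos (cusp_periodic f) (cusp_mdiff f) (cusp_isZeroAtImInfty f) _ c

theorem contDiffAt_comp_ofComplex {G : ℍ → ℂ} (hG : MDiff G) (m : ℕ) (τ : ℍ) :
    ContDiffAt ℂ m (G ∘ ofComplex) (τ : ℂ) := by
  have h1 : DifferentiableOn ℂ (G ∘ ofComplex) {z | 0 < z.im} :=
    UpperHalfPlane.mdifferentiable_iff.mp hG
  exact (h1.contDiffOn isOpen_upperHalfPlaneSet).contDiffAt
    (isOpen_upperHalfPlaneSet.mem_nhds τ.im_pos)

theorem iteratedDeriv_eich_slash (f : CuspForm (CongruenceSubgroup.Gamma0 N) ((n : ℤ) + 2))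
    (γ : SL(2, ℤ)) (τ : ℍ) :
    iteratedDeriv (n + 1) ((eich n f ∣[(-(n : ℤ))] γ) ∘ ofComplex) (τ : ℂ) =
      ((⇑f : ℍ → ℂ) ∣[((n : ℤ) + 2)] γ) τ := by
  have hb := bol (n + 1) (eich_mdiff n f) γ τ
  have hw1 : (1 : ℤ) - ((n + 1 : ℕ) : ℤ) = -(n : ℤ) := by push_cast; ring
  have hw2 : (1 : ℤ) + ((n + 1 : ℕ) : ℤ) = (n : ℤ) + 2 := by push_cast; ring
  rw [hw1, hw2] at hb
  rw [hb]
  have hfun : (fun z : ℍ => iteratedDeriv (n + 1) (eich n f ∘ ofComplex) (z : ℂ)) = ⇑f := by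
    funext z
    exact eichler_iteratedDeriv one_pos (cusp_periodic f) (cusp_mdiff f)
      (cusp_isZeroAtImInfty f) (n + 1) z
  rw [hfun]

theorem exists_period (f : CuspForm (CongruenceSubgroup.Gamma0 N) ((n : ℤ) + 2))
    (γ : SL(2, ℤ)) (hγ : γ ∈ CongruenceSubgroup.Gamma0 N) :
    ∃ v : Fin (n + 1) → ℂ, eich n f ∣[(-(n : ℤ))] γ - eich n f = polyFun v := by
  have hE := eich_mdiff n f
  have hEγ : MDiff (eich n f ∣[(-(n : ℤ))] γ) := by
    rw [ModularForm.SL_slash]
    exact hE.slash _ _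
  refine exists_polyFun_of_iteratedDeriv_eq_zero (n + 1) (hEγ.sub hE) (fun τ => ?_)
  have hcomp : ((eich n f ∣[(-(n : ℤ))] γ - eich n f) ∘ ofComplex) =
      ((eich n f ∣[(-(n : ℤ))] γ) ∘ ofComplex) - (eich n f ∘ ofComplex) := rfl
  rw [hcomp, iteratedDeriv_sub (contDiffAt_comp_ofComplex hEγ _ τ)
    (contDiffAt_comp_ofComplex hE _ τ), iteratedDeriv_eich_slash]
  have h2 : iteratedDeriv (n + 1) (eich n f ∘ ofComplex) (τ : ℂ) = f τ :=
    eichler_iteratedDeriv one_pos (cusp_periodic f) (cusp_mdiff f)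
      (cusp_isZeroAtImInfty f) (n + 1) τ
  rw [h2]
  have hinv : (⇑f : ℍ → ℂ) ∣[((n : ℤ) + 2)] γ = ⇑f := by
    rw [ModularForm.SL_slash]
    exact SlashInvariantFormClass.slash_action_eq f _ (Subgroup.mem_map_of_mem _ hγ)
  rw [hinv, sub_self]

/-- The period vector of a cusp form `f` at `γ ∈ Γ₀(N)`: coefficient vector of the polynomial
`E f ∣[-n] γ - E f`. -/
def period (f : CuspForm (CongruenceSubgroup.Gamma0 N) ((n : ℤ) + 2))
    (γ : CongruenceSubgroup.Gamma0 N) : Fin (n + 1) → ℂ :=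
  Classical.choose (exists_period n f γ.1 γ.2)

theorem polyFun_period (f : CuspForm (CongruenceSubgroup.Gamma0 N) ((n : ℤ) + 2))
    (γ : CongruenceSubgroup.Gamma0 N) :
    polyFun (period n f γ) = eich n f ∣[(-(n : ℤ))] (γ : SL(2, ℤ)) - eich n f :=
  (Classical.choose_spec (exists_period n f γ.1 γ.2)).symm

theorem period_add (f g : CuspForm (CongruenceSubgroup.Gamma0 N) ((n : ℤ) + 2))
    (γ : CongruenceSubgroup.Gamma0 N) :
    period n (f + g) γ = period n f γ + period n g γ := by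
  apply polyFun_injective
  rw [polyFun_add, polyFun_period, polyFun_period, polyFun_period, eich_add,
    SlashAction.add_slash]
  abel

theorem period_smul (c : ℂ) (f : CuspForm (CongruenceSubgroup.Gamma0 N) ((n : ℤ) + 2))
    (γ : CongruenceSubgroup.Gamma0 N) :
    period n (c • f) γ = c • period n f γ := by
  apply polyFun_injective
  rw [polyFun_smul, polyFun_period, polyFun_period, eich_smul, ModularForm.SL_smul_slash,
    smul_sub]

/-- The integer matrix by which `δ ∈ SL(2,ℤ)` acts on period vectors. -/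
def slMat (δ : SL(2, ℤ)) : Matrix (Fin (n + 1)) (Fin (n + 1)) ℤ :=
  slashMat n (δ 0 0) (δ 0 1) (δ 1 0) (δ 1 1)

theorem polyFun_intAct_slMat (δ : SL(2, ℤ)) (v : Fin (n + 1) → ℂ) :
    polyFun (intAct (slMat n δ) v) = (polyFun v) ∣[(-(n : ℤ))] δ :=
  (polyFun_slash_SL n δ v).symm

theorem period_one (f : CuspForm (CongruenceSubgroup.Gamma0 N) ((n : ℤ) + 2)) :
    period n f 1 = 0 := by
  apply polyFun_injective
  rw [polyFun_period, polyFun_zero]
  simp

theorem period_mul (f : CuspForm (CongruenceSubgroup.Gamma0 N) ((n : ℤ) + 2))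
    (γ δ : CongruenceSubgroup.Gamma0 N) :
    period n f (γ * δ) = intAct (slMat n δ.1) (period n f γ) + period n f δ := by
  apply polyFun_injective
  rw [polyFun_add, polyFun_period, polyFun_period, polyFun_intAct_slMat, polyFun_period]
  rw [Subgroup.coe_mul, SlashAction.slash_mul, sub_eq_add_neg (eich n f ∣[(-(n : ℤ))] (γ : SL(2, ℤ))),
    SlashAction.add_slash, SlashAction.neg_slash]
  abel

theorem period_inv (f : CuspForm (CongruenceSubgroup.Gamma0 N) ((n : ℤ) + 2))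
    (γ : CongruenceSubgroup.Gamma0 N) :
    period n f γ⁻¹ = -intAct (slMat n (γ⁻¹).1) (period n f γ) := by
  have h := period_mul n f γ γ⁻¹
  rw [mul_inv_cancel, period_one] at h
  exact eq_neg_of_add_eq_zero_right h.symm

end period

end H22
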