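import Fermat.Agent.S22.Defs

/-!
# S22: integer matrices of the weight `-n` slash action on polynomial functions (helper22)
-/

set_option autoImplicit false

noncomputable section

open UpperHalfPlane Polynomial
open scoped MatrixGroups ModularForm

namespace H22

/-- The integer polynomial `(aX+b)^j (cX+d)^(n-j)`. -/
def slashPoly (n : ℕ) (a b c d : ℤ) (j : ℕ) : ℤ[X] :=
  (C a * X + C b) ^ j * (C c * X + C d) ^ (n - j)

theorem natDegree_slashPoly_le (n : ℕ) (a b c d : ℤ) {j : ℕ} (hj : j ≤ n) :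
    (slashPoly n a b c d j).natDegree ≤ n := by
  unfold slashPoly
  refine (natDegree_mul_le).trans ?_
  have h1 : ((C a * X + C b : ℤ[X]) ^ j).natDegree ≤ j := by
    refine (natDegree_pow_le).trans ?_
    have : (C a * X + C b : ℤ[X]).natDegree ≤ 1 := natDegree_linear_le
    nlinarith
  have h2 : ((C c * X + C d : ℤ[X]) ^ (n - j)).natDegree ≤ n - j := by
    refine (natDegree_pow_le).trans ?_
    have : (C c * X + C d : ℤ[X]).natDegree ≤ 1 := natDegree_linear_le
    nlinarith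
  omega

/-- Integer matrix of the degree-`n` action of the integer matrix `[[a,b],[c,d]]` on coefficient
vectors of polynomials of degree `≤ n`. -/
def slashMat (n : ℕ) (a b c d : ℤ) : Matrix (Fin (n + 1)) (Fin (n + 1)) ℤ :=
  fun i j => (slashPoly n a b c d (j : ℕ)).coeff (i : ℕ)

/-- Action of an integer matrix on complex coefficient vectors. -/
def intAct {d : ℕ} (M : Matrix (Fin d) (Fin d) ℤ) (v : Fin d → ℂ) : Fin d → ℂ :=
  fun i => ∑ j, (M i j : ℂ) * v j

theorem intAct_add {d : ℕ} (M : Matrix (Fin d) (Fin d) ℤ) (v w : Fin d → ℂ) :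
    intAct M (v + w) = intAct M v + intAct M w := by
  funext i
  simp [intAct, mul_add, Finset.sum_add_distrib]

theorem intAct_smul {d : ℕ} (M : Matrix (Fin d) (Fin d) ℤ) (c : ℂ) (v : Fin d → ℂ) :
    intAct M (c • v) = c • intAct M v := by
  funext i
  simp only [intAct, Pi.smul_apply, smul_eq_mul, Finset.mul_sum]
  exact Finset.sum_congr rfl fun j _ => by ring

theorem intAct_zero {d : ℕ} (M : Matrix (Fin d) (Fin d) ℤ) :
    intAct M (0 : Fin d → ℂ) = 0 := by
  funext i
  simp [intAct]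

theorem polyFun_add {d : ℕ} (v w : Fin d → ℂ) : polyFun (v + w) = polyFun v + polyFun w := by
  funext τ
  simp [polyFun, add_mul, Finset.sum_add_distrib]

theorem polyFun_smul {d : ℕ} (c : ℂ) (v : Fin d → ℂ) : polyFun (c • v) = c • polyFun v := by
  funext τ
  simp only [polyFun, Pi.smul_apply, smul_eq_mul, Finset.mul_sum]
  exact Finset.sum_congr rfl fun j _ => by ring

theorem polyFun_zero {d : ℕ} : polyFun (0 : Fin d → ℂ) = 0 := by
  funext τ
  simp [polyFun]

theorem polyFun_neg {d : ℕ} (v : Fin d → ℂ) : polyFun (-v) = -polyFun v := by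
  funext τ
  simp [polyFun]

theorem polyFun_sub {d : ℕ} (v w : Fin d → ℂ) : polyFun (v - w) = polyFun v - polyFun w := by
  funext τ
  simp [polyFun, sub_mul, Finset.sum_sub_distrib]

/-- The polynomial with given coefficient vector. -/
def vecPoly {d : ℕ} (v : Fin d → ℂ) : ℂ[X] := ∑ j : Fin d, C (v j) * X ^ (j : ℕ)

theorem eval_vecPoly {d : ℕ} (v : Fin d → ℂ) (z : ℂ) :
    (vecPoly v).eval z = ∑ j : Fin d, v j * z ^ (j : ℕ) := by
  simp [vecPoly, eval_finsetSum]

theorem coeff_vecPoly {d : ℕ} (v : Fin d → ℂ) (i : Fin d) : (vecPoly v).coeff (i : ℕ) = v i := by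
  simp only [vecPoly, finsetSum_coeff, coeff_C_mul, coeff_X_pow]
  rw [Finset.sum_eq_single i]
  · simp
  · intro j _ hj
    have : (i : ℕ) ≠ (j : ℕ) := fun h => hj (Fin.ext h.symm)
    simp [this]
  · simp

theorem infinite_upperHalfPlaneSet : Set.Infinite {z : ℂ | 0 < z.im} := by
  have hinj : Function.Injective (fun n : ℕ => ((n : ℂ) + 1) * Complex.I) := by
    intro m n h
    have := congrArg Complex.im h
    simp at this
    exact_mod_cast this
  refine Set.infinite_of_injective_forall_mem hinj (fun n => ?_)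
  show 0 < (((n : ℂ) + 1) * Complex.I).im
  simp only [Complex.mul_im, Complex.I_re, Complex.I_im, mul_zero, mul_one,
    Complex.add_re, Complex.natCast_re, Complex.one_re, Complex.add_im, Complex.natCast_im,
    Complex.one_im, add_zero]
  positivity

theorem polyFun_injective {d : ℕ} : Function.Injective (polyFun (d := d)) := by
  intro v w h
  have hp : vecPoly v = vecPoly w := by
    refine Polynomial.eq_of_infinite_eval_eq _ _ (infinite_upperHalfPlaneSet.mono ?_)
    intro z hz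
    have := congrFun h ⟨z, hz⟩
    simpa [polyFun, eval_vecPoly] using this
  funext i
  rw [← coeff_vecPoly v i, ← coeff_vecPoly w i, hp]

/-- The key evaluation identity for `slashMat`. -/
theorem sum_intAct_slashMat (n : ℕ) (a b c d : ℤ) (v : Fin (n + 1) → ℂ) (z : ℂ) :
    ∑ i : Fin (n + 1), intAct (slashMat n a b c d) v i * z ^ (i : ℕ) =
      ∑ j : Fin (n + 1), v j * (((a : ℂ) * z + b) ^ (j : ℕ) * ((c : ℂ) * z + d) ^ (n - (j : ℕ))) := by
  have key : ∀ j : Fin (n + 1),
      ∑ i : Fin (n + 1), ((slashMat n a b c d i j : ℤ) : ℂ) * z ^ (i : ℕ) =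
        ((a : ℂ) * z + b) ^ (j : ℕ) * ((c : ℂ) * z + d) ^ (n - (j : ℕ)) := by
    intro j
    have hdeg : (slashPoly n a b c d (j : ℕ)).natDegree < n + 1 :=
      Nat.lt_succ_of_le (natDegree_slashPoly_le n a b c d (Nat.lt_succ_iff.mp j.2))
    have h1 := Polynomial.eval₂_eq_sum_range' (Int.castRingHom ℂ) hdeg z
    rw [← Fin.sum_univ_eq_sum_range (fun i => (Int.castRingHom ℂ) ((slashPoly n a b c d (j : ℕ)).coeff i) * z ^ i)] at h1
    have h2 : eval₂ (Int.castRingHom ℂ) z (slashPoly n a b c d (j : ℕ)) =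
        ((a : ℂ) * z + b) ^ (j : ℕ) * ((c : ℂ) * z + d) ^ (n - (j : ℕ)) := by
      simp only [slashPoly, eval₂_mul, eval₂_pow, eval₂_add, eval₂_C, eval₂_X, Int.coe_castRingHom]
    rw [← h2, h1]
    rfl
  calc ∑ i : Fin (n + 1), intAct (slashMat n a b c d) v i * z ^ (i : ℕ)
      = ∑ i : Fin (n + 1), ∑ j : Fin (n + 1), v j * (((slashMat n a b c d i j : ℤ) : ℂ) * z ^ (i : ℕ)) := by
        refine Finset.sum_congr rfl fun i _ => ?_
        simp only [intAct, Finset.sum_mul]
        exact Finset.sum_congr rfl fun j _ => by ring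
    _ = ∑ j : Fin (n + 1), ∑ i : Fin (n + 1), v j * (((slashMat n a b c d i j : ℤ) : ℂ) * z ^ (i : ℕ)) :=
        Finset.sum_comm
    _ = _ := by
        refine Finset.sum_congr rfl fun j _ => ?_
        rw [← Finset.mul_sum, key j]

/-- Slash action of `SL(2,ℤ)` in weight `-n` on polynomial functions of degree `≤ n`. -/
theorem polyFun_slash_SL (n : ℕ) (γ : SL(2, ℤ)) (v : Fin (n + 1) → ℂ) :
    (polyFun v) ∣[(-(n : ℤ))] γ =
      polyFun (intAct (slashMat n (γ 0 0) (γ 0 1) (γ 1 0) (γ 1 1)) v) := by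
  funext τ
  rw [ModularForm.SL_slash_apply]
  simp only [polyFun]
  rw [sum_intAct_slashMat]
  have hden : denom (γ : GL (Fin 2) ℝ) (τ : ℂ) ≠ 0 := denom_ne_zero _ τ
  have hdenom : denom (γ : GL (Fin 2) ℝ) (τ : ℂ) = (γ 1 0 : ℂ) * τ + (γ 1 1 : ℂ) := by
    simp [denom]
  have hnum : ((γ • τ : ℍ) : ℂ) = ((γ 0 0 : ℂ) * τ + (γ 0 1 : ℂ)) / ((γ 1 0 : ℂ) * τ + (γ 1 1 : ℂ)) := by
    rw [UpperHalfPlane.specialLinearGroup_apply]
    simp
  rw [neg_neg, zpow_natCast, Finset.sum_mul]
  refine Finset.sum_congr rfl fun j _ => ?_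
  rw [hnum, hdenom] at *
  have hj : (j : ℕ) ≤ n := Nat.lt_succ_iff.mp j.2
  set D := (γ 1 0 : ℂ) * τ + (γ 1 1 : ℂ) with hD
  have hD0 : D ≠ 0 := hden
  rw [div_pow, mul_assoc]
  congr 1
  rw [show D ^ n = D ^ (j : ℕ) * D ^ (n - (j : ℕ)) by rw [← pow_add]; congr 1; omega]
  field_simp

/-- Scaled slash action of the Hecke matrix `[[1,j],[0,p]]` on polynomial functions. -/
theorem polyFun_slash_heckeMatrix (n : ℕ) {p : ℕ} (hp : p ≠ 0) (j : ℕ) (v : Fin (n + 1) → ℂ) :
    ((p : ℂ) ^ (n + 1)) • ((polyFun v) ∣[(-(n : ℤ))] ModularForm.heckeMatrix p j) =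
      polyFun (intAct (slashMat n 1 j 0 p) v) := by
  funext τ
  have hp' : (p : ℂ) ≠ 0 := by exact_mod_cast hp
  rw [Pi.smul_apply, ModularForm.slash_heckeMatrix_apply _ hp, smul_eq_mul]
  simp only [polyFun]
  rw [sum_intAct_slashMat, ModularForm.coe_heckeMatrix_smul hp, Finset.mul_sum, Finset.mul_sum]
  refine Finset.sum_congr rfl fun l _ => ?_
  have hl : (l : ℕ) ≤ n := Nat.lt_succ_iff.mp l.2
  push_cast
  rw [div_pow, show (p : ℂ) ^ (n + 1) = (p : ℂ) * ((p : ℂ) ^ (l : ℕ) * (p : ℂ) ^ (n - (l : ℕ))) by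
    rw [← pow_add, ← pow_succ']; congr 1; omega]
  field_simp
  ring

/-- Scaled slash action of the Hecke matrix `[[p,0],[0,1]]` on polynomial functions. -/
theorem polyFun_slash_heckeDiagMatrix (n : ℕ) {p : ℕ} (hp : p ≠ 0) (v : Fin (n + 1) → ℂ) :
    ((p : ℂ) ^ (n + 1)) • ((polyFun v) ∣[(-(n : ℤ))] ModularForm.heckeDiagMatrix p) =
      polyFun (intAct (slashMat n p 0 0 1) v) := by
  funext τ
  have hp' : (p : ℂ) ≠ 0 := by exact_mod_cast hp
  rw [Pi.smul_apply, ModularForm.slash_heckeDiagMatrix_apply _ hp, smul_eq_mul]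
  simp only [polyFun]
  rw [sum_intAct_slashMat, ModularForm.coe_heckeDiagMatrix_smul hp, Finset.mul_sum, Finset.mul_sum]
  refine Finset.sum_congr rfl fun l _ => ?_
  push_cast
  rw [show (-(n : ℤ) - 1) = -((n + 1 : ℕ) : ℤ) by push_cast; ring, zpow_neg, zpow_natCast]
  field_simp
  ring

end H22
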